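import Mathlib

/-!
# S12 one-step route: the `2`-adic endgame (helper291)

`X` odd, `32 ∣ Y ≠ 0`, `p` odd:  `16^(p-1) ((X + Y)^p - X^p) ≠ Y^p`.
(The left side has `2`-adic valuation `4(p-1) + v₂(Y)`, the right side `p · v₂(Y)`, and
`v₂(Y) ≥ 5`.)
-/

set_option autoImplicit false

namespace Fermat.Agent.S12.H291

lemma intCast_zmod_two_of_odd {X : ℤ} (hX : Odd X) : ((X : ℤ) : ZMod 2) = 1 := by
  obtain ⟨k, rfl⟩ := hX
  push_cast
  have : (2 : ZMod 2) = 0 := rfl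
  rw [this, zero_mul, zero_add]

/-- `∑_{i<p} Z^i X^(p-1-i)` is odd for `Z`, `X` odd and `p` odd. -/
lemma odd_geom_sum₂ {X Z : ℤ} {p : ℕ} (hp : Odd p) (hX : Odd X) (hZ : Odd Z) :
    Odd (∑ i ∈ Finset.range p, Z ^ i * X ^ (p - 1 - i)) := by
  have hX1 := intCast_zmod_two_of_odd hX
  have hZ1 := intCast_zmod_two_of_odd hZ
  have hS1 : ((∑ i ∈ Finset.range p, Z ^ i * X ^ (p - 1 - i) : ℤ) : ZMod 2) = 1 := by
    push_cast
    simp only [hX1, hZ1, one_pow, mul_one, Finset.sum_const, Finset.card_range, nsmul_eq_mul]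
    obtain ⟨k, rfl⟩ := hp
    push_cast
    have : (2 : ZMod 2) = 0 := rfl
    rw [this, zero_mul, zero_add]
  rw [← Int.not_even_iff_odd]
  intro hev
  obtain ⟨t, ht⟩ := hev
  rw [ht] at hS1
  push_cast at hS1
  have h2 : (t : ZMod 2) + (t : ZMod 2) = 0 := by
    have : (t : ZMod 2) + (t : ZMod 2) = 2 * (t : ZMod 2) := by ring
    rw [this]
    have : (2 : ZMod 2) = 0 := rfl
    rw [this, zero_mul]
  rw [h2] at hS1
  exact zero_ne_one hS1

/-- **Endgame.** -/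
theorem endgame {X Y : ℤ} {p : ℕ} (hp : Odd p) (hp1 : 1 < p) (hX : Odd X) (hY : (32 : ℤ) ∣ Y)
    (hY0 : Y ≠ 0) : (16 : ℤ) ^ (p - 1) * ((X + Y) ^ p - X ^ p) ≠ Y ^ p := by
  intro h
  have hYeven : Even Y := by
    obtain ⟨t, rfl⟩ := hY
    exact ⟨16 * t, by ring⟩
  have hZ : Odd (X + Y) := hX.add_even hYeven
  have hS := odd_geom_sum₂ hp hX hZ
  set S := ∑ i ∈ Finset.range p, (X + Y) ^ i * X ^ (p - 1 - i) with hSdef
  have hgeom : S * Y = (X + Y) ^ p - X ^ p := by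
    have := (Commute.all (X + Y) X).geom_sum₂_mul p
    rw [add_sub_cancel_left] at this
    exact this
  rw [← hgeom] at h
  have hp' : p = (p - 1) + 1 := by omega
  have h1 : (16 : ℤ) ^ (p - 1) * S = Y ^ (p - 1) := by
    apply mul_right_cancel₀ hY0
    rw [← pow_succ, ← hp']
    linear_combination h
  obtain ⟨t, rfl⟩ := hY
  have h2 : S = 2 ^ (p - 1) * t ^ (p - 1) := by
    have h16 : (16 : ℤ) ^ (p - 1) ≠ 0 := pow_ne_zero _ (by norm_num)
    apply mul_left_cancel₀ h16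
    rw [h1, ← mul_assoc, ← mul_pow, ← mul_pow]
    norm_num
  have hev : Even S := by
    rw [h2]
    have hp2 : p - 1 = (p - 2) + 1 := by omega
    rw [hp2, pow_succ]
    exact ⟨2 ^ (p - 2) * t ^ (p - 2 + 1), by ring⟩
  exact (Int.not_even_iff_odd.mpr hS) hev

end Fermat.Agent.S12.H291
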