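import Fermat.Agent.S12.H111.GeoSub
import Fermat.Agent.S15.H962.IterRed

/-!
# Node GEO-PARTS of row S15 for Galois-STABLE subgroups (helper291, for row S12)

`GeoPartsSubStatement p` is `S15.H962.GeoPartsStatement p` with "`Q` Galois-fixed" weakened to
"`⟨Q⟩` Galois-stable".  It implies BOTH

* `S15.H962.GeoPartsStatement p` (hence `S15.Core.GeoStatement p`, row S15), and
* `S12.H111.GeoSubStatement p` (row S12, one-step route).

The moduli place in subgroup form is `S12.H291.moduliPlaceSub` (`ModSub.lean`); all other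
GEO-PARTS leaves (DISC, PROP, IDENT) are local or formal and do not use that `Q` is fixed.
-/

set_option autoImplicit false

noncomputable section

open AlgebraicCurve ModularCurve WeierstrassCurve WeierstrassCurve.Affine

namespace Fermat.Agent.S12.H291

open Fermat.Agent.S15.Core Fermat.Agent.S15.H962 Fermat.Agent.S12.H111

variable (p : ℕ) [NeZero p]

/-- **GEO-PARTS, subgroup form.** -/
def GeoPartsSubStatement : Prop :=
  ∀ (W : WeierstrassCurve ℤ), W.Δ ≠ 0 →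
  ∀ (Q : ((W.map (Int.castRingHom ℚ))⁄(AlgebraicClosure ℚ)).Point),
    (∀ σ : AlgebraicClosure ℚ ≃ₐ[ℚ] AlgebraicClosure ℚ, σ • Q ∈ AddSubgroup.zmultiples Q) →
    addOrderOf Q = p →
  ∀ (P₀ : Place (AlgebraicClosure ℚ) (modularFunctionFieldBar p)) (c : JZero p),
    IsCuspZero p P₀ → IsDiffClass P₀ (cuspInfty p) c →
  ∃ D : JZero p, (∀ σ : AlgebraicClosure ℚ ≃ₐ[ℚ] AlgebraicClosure ℚ, σ • D = D) ∧
    ∀ q : ℕ, q.Prime → q ≠ p → (q : ℤ) ∣ W.Δ → ¬ (q : ℤ) ∣ W.c₄ →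
    ∀ A : ValuationSubring (AlgebraicClosure ℚ), A.LiesOverPrime q →
    ∃ (X : Type) (_ : AddCommGroup X) (sp₀ : JZero p →+ X) (K : AddSubgroup (JZero p)),
      (∀ (m : ℕ) (z : JZero p), ¬ q ∣ m → m • z = 0 → sp₀ z = 0 → z = 0) ∧
      (∀ T ∈ goodHecke p {q}, ∀ z ∈ K, T z ∈ K) ∧
      (∀ z ∈ K, sp₀ z = 0) ∧
      (¬ W.InZeroComponentAt A Q → D ∈ K) ∧
      (W.InZeroComponentAt A Q → D + c ∈ K)

variable {p}

/-- The subgroup form implies the point form of GEO-PARTS (row S15). -/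
theorem geoParts_of_geoPartsSub (h : GeoPartsSubStatement p) : GeoPartsStatement p := by
  intro W hΔ Q hQfix hQord P₀ c hP₀ hc
  refine h W hΔ Q (fun σ => ?_) hQord P₀ c hP₀ hc
  rw [hQfix σ]
  exact AddSubgroup.mem_zmultiples Q

/-- **GEO (subgroup form) from GEO-PARTS (subgroup form)** (formal; row S12). -/
theorem geoSub_of_geoPartsSub (h : GeoPartsSubStatement p) : GeoSubStatement p := by
  intro W hΔ Q hQstab hQord P₀ c hP₀ hc
  obtain ⟨D, hDfix, hD⟩ := h W hΔ Q hQstab hQord P₀ c hP₀ hc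
  refine ⟨D, hDfix, ?_⟩
  intro q hq hqp hqΔ hqc₄ A hA
  obtain ⟨X, instX, sp₀, K, hinj, hK, hsp, hD₀, hDinf⟩ := hD q hq hqp hqΔ hqc₄ A hA
  exact ⟨heckeWords p q → X, inferInstance, iterSp q sp₀, iterSp_inj hinj,
    fun T hT z hz => iterSp_hecke sp₀ T hT z hz,
    fun hQ => iterSp_eq_zero_of_mem K hK hsp (hD₀ hQ),
    fun hQ => iterSp_eq_zero_of_mem K hK hsp (hDinf hQ)⟩

end Fermat.Agent.S12.H291
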