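import Fermat.Agent.S12.H291.Glue
import Fermat.Agent.S12.H291.GeoSubParts

/-!
# Row S12, one-step route: frozen S12 from CUSP, GEO-PARTS (subgroup form) and DESC (helper291)

`s12_of_parts` is `Glue.s12_of_s15_nodes` with GEO replaced by GEO-PARTS in subgroup form
(`GeoPartsSubStatement`, which also implies the GEO-PARTS node of row S15).
-/

set_option autoImplicit false

noncomputable section

open WeierstrassCurve WeierstrassCurve.Affine WeierstrassCurve.Affine.Point

namespace Fermat.Agent.S12.H291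

open Fermat.Agent.S15.Core (CuspStatement DescentStatement)

/-- **Row S12 — FINAL (parts form).** -/
theorem s12_of_parts
    (hCusp : ∀ (p : ℕ) (hp : p.Prime), 17 ≤ p →
      haveI : NeZero p := ⟨hp.ne_zero⟩; CuspStatement p)
    (hGeo : ∀ (p : ℕ) (hp : p.Prime), 17 ≤ p →
      haveI : NeZero p := ⟨hp.ne_zero⟩; GeoPartsSubStatement p)
    (hDesc : ∀ (p : ℕ) (hp : p.Prime), 17 ≤ p →
      haveI : NeZero p := ⟨hp.ne_zero⟩; DescentStatement p)
    (P : FreyPackage) (hp : 17 ≤ P.p) :
    ¬ HasGaloisStableCofixedLine (K := AlgebraicClosure ℚ) ℚ P.freyCurve P.p :=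
  s12_of_s15_nodes hCusp
    (fun p hp h17 =>
      haveI : NeZero p := ⟨hp.ne_zero⟩
      geoSub_of_geoPartsSub (hGeo p hp h17))
    hDesc P hp

end Fermat.Agent.S12.H291
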