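import Fermat.Agent.S12.H291.GoodSmall
import Fermat.Agent.S12.H411.Leaves
import Fermat.Agent.S12.H111.GeoSub

/-!
# Row S12, one-step route: FINAL GLUE (helper291)

`s12_of_s15_nodes` : frozen S12 from the three nodes of row S15 (`CuspStatement p`,
`GeoSubStatement p` = node GEO for Galois-stable subgroups, `DescentStatement p`, for the primes
`p ≥ 17`).  Everything else is proved:

* TOP (`OneStep`, `PiRat`, `Local`): Jacobi's identity + `2`-adic endgame + rationality of `Π_j`;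
* local leaves at `ℓ = p`, good `ℓ`, and TORIC ⇒ TERM (helper411, `S12/H411/Leaves.lean`);
* the cofixed line is toric at `2`, at `3` (and `3 ∣ abc`), and at every bad `ℓ ≢ ±1 mod p`
  (`ToricFrey`, `GoodSmall`);
* the cofixed line is toric at the bad `ℓ ≡ ±1 mod p`: helper111's `inZero_of_nodes`
  (`S12/H111/GeoSub.lean`) applied to the Frey curve itself — the ONLY global input.

No quotient curve `E/N`, no Vélu isogeny, no determinant is used.
-/

set_option autoImplicit false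
set_option linter.unusedSectionVars false
set_option linter.style.haveILetI false

noncomputable section

open WeierstrassCurve WeierstrassCurve.Affine WeierstrassCurve.Affine.Point

namespace Fermat.Agent.S12.H291

open Fermat.Agent.Lib.Red.H290 Fermat.Agent.S15.H242
open Fermat.Agent.S15.Core (CuspStatement DescentStatement)
open Fermat.Agent.S12.H111 (GeoSubStatement inZero_of_nodes)

/-- `E⁰` in the sense of reduction implies the Prelude's `InZeroComponentAt`. -/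
lemma inZeroComponentAt_of_inE0 (W : WeierstrassCurve ℤ) (A : ValuationSubring Qb)
    {Q : ((W.map (Int.castRingHom ℚ))⁄Qb).Point}
    (hQ : InE0 A (IsLocalRing.residue A) (W⁄(IsLocalRing.ResidueField A)) Q) :
    W.InZeroComponentAt A Q := by
  rcases Q with _ | ⟨x, y, h⟩
  · exact Or.inl rfl
  · refine Or.inr ⟨x, y, h, rfl, ?_⟩
    by_cases hx : x ∈ A
    · have hred := isRedOf_int A W (IsLocalRing.residue A)
      have hy : y ∈ A := y_mem_of_x_mem hred h.1 hx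
      refine Or.inr ⟨hx, hy, ?_⟩
      have := hQ hx
      rw [rd_of_mem hx, rd_of_mem hy] at this
      exact this
    · exact Or.inl hx

/-- helper111's dual TOP, transported to a curve `Wq = W₀_ℚ` and to `E⁰` in the sense of
reduction. -/
theorem inE0_of_nodes_general {p : ℕ} (hp : p.Prime) (hp2 : p ≠ 2) (hp3 : p ≠ 3)
    (hCusp : haveI : NeZero p := ⟨hp.ne_zero⟩; CuspStatement p)
    (hGeo : haveI : NeZero p := ⟨hp.ne_zero⟩; GeoSubStatement p)
    (hDesc : haveI : NeZero p := ⟨hp.ne_zero⟩; DescentStatement p)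
    (W₀ : WeierstrassCurve ℤ) (hΔ : W₀.Δ ≠ 0)
    (Wq : WeierstrassCurve ℚ) (hW : Wq = W₀.map (Int.castRingHom ℚ))
    (Q : (Wq⁄Qb).Point)
    (hQstab : ∀ σ : Qb ≃ₐ[ℚ] Qb, σ • Q ∈ AddSubgroup.zmultiples Q)
    (hQord : addOrderOf Q = p)
    (h2Δ : (2 : ℤ) ∣ W₀.Δ) (h2c₄ : ¬ (2 : ℤ) ∣ W₀.c₄)
    (h2 : ∀ A : ValuationSubring Qb, A.LiesOverPrime 2 →
      InE0 A (IsLocalRing.residue A) (W₀⁄(IsLocalRing.ResidueField A)) Q)
    (h3Δ : (3 : ℤ) ∣ W₀.Δ) (h3c₄ : ¬ (3 : ℤ) ∣ W₀.c₄)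
    (h3 : ∀ A : ValuationSubring Qb, A.LiesOverPrime 3 →
      InE0 A (IsLocalRing.residue A) (W₀⁄(IsLocalRing.ResidueField A)) Q)
    {ℓ : ℕ} (hℓ : ℓ.Prime) (hℓp : ℓ ≠ p) (hℓΔ : (ℓ : ℤ) ∣ W₀.Δ) (hℓc₄ : ¬ (ℓ : ℤ) ∣ W₀.c₄)
    (hpm : p ∣ ℓ - 1 ∨ p ∣ ℓ + 1)
    (A : ValuationSubring Qb) (hA : A.LiesOverPrime ℓ) :
    InE0 A (IsLocalRing.residue A) (W₀⁄(IsLocalRing.ResidueField A)) Q := by
  subst hW
  exact inE0_of_inZeroComponentAt W₀ A
    (inZero_of_nodes hp hp2 hp3 hCusp hGeo hDesc W₀ hΔ Q hQstab hQord h2Δ h2c₄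
      (fun A₂ hA₂ => inZeroComponentAt_of_inE0 W₀ A₂ (h2 A₂ hA₂)) h3Δ h3c₄
      (fun A₃ hA₃ => inZeroComponentAt_of_inE0 W₀ A₃ (h3 A₃ hA₃)) hℓ hℓp hℓΔ hℓc₄ hpm A hA)

/-- **TORIC at `2`** in helper411's shape. -/
theorem toric2Statement : Fermat.Agent.S12.H411.Toric2Statement := by
  intro P hp N hN T hTN A hA
  exact toric_two P (by omega) N hN A hA T hTN

/-- **TORIC at the odd bad primes** from the three nodes of row S15. -/
theorem toricBad_of_nodes
    (hCusp : ∀ (p : ℕ) (hp : p.Prime), 17 ≤ p →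
      haveI : NeZero p := ⟨hp.ne_zero⟩; CuspStatement p)
    (hGeo : ∀ (p : ℕ) (hp : p.Prime), 17 ≤ p →
      haveI : NeZero p := ⟨hp.ne_zero⟩; GeoSubStatement p)
    (hDesc : ∀ (p : ℕ) (hp : p.Prime), 17 ≤ p →
      haveI : NeZero p := ⟨hp.ne_zero⟩; DescentStatement p) :
    Fermat.Agent.S12.H411.ToricBadStatement := by
  intro P hp N hN T hTN ℓ hℓ hℓ2 hℓp hbad A hA
  by_cases hpm : P.p ∣ ℓ - 1 ∨ P.p ∣ ℓ + 1
  · by_cases hT0 : T = 0
    · rw [hT0]; exact inE0_zero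
    have h3abc := three_dvd_abc_of_cofixed P (by omega) N hN
    have h2Δ' := dvd_freyΔ_of_dvd_abc P Nat.prime_two (by exact_mod_cast P.two_dvd_abc)
    have h3Δ' := dvd_freyΔ_of_dvd_abc P Nat.prime_three (by exact_mod_cast h3abc)
    have hℓΔ := dvd_freyΔ_of_dvd_abc P hℓ hbad
    have h2c := Fermat.Agent.Ribet.H164.g1a_semistable P 2 Nat.prime_two h2Δ'
    have h3c := Fermat.Agent.Ribet.H164.g1a_semistable P 3 Nat.prime_three h3Δ'
    have hℓc := Fermat.Agent.Ribet.H164.g1a_semistable P ℓ hℓ hℓΔ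
    refine inE0_of_nodes_general P.pp (by omega) (by omega) (hCusp P.p P.pp hp)
      (hGeo P.p P.pp hp) (hDesc P.p P.pp hp) P.freyCurveInt
      (Fermat.Agent.Ribet.H164.g1a_Δ_ne_zero P) P.freyCurve
      (Fermat.Agent.S13.H164.freyCurve_eq_map P) (T : FreyPt P) ?_
      (addOrderOf_eq_of_mem_torsion T hT0) (by exact_mod_cast h2Δ') (by exact_mod_cast h2c)
      (fun A₂ hA₂ => toric_two P (by omega) N hN A₂ hA₂ T hTN)
      (by exact_mod_cast h3Δ') (by exact_mod_cast h3c)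
      (fun A₃ hA₃ => toric_three P (by omega) h3abc N hN A₃ hA₃ T hTN)
      hℓ hℓp hℓΔ hℓc hpm A hA
    intro σ
    obtain ⟨k, hk⟩ := Fermat.Agent.S13.H64.frey_line P N hN.ne_top T hTN hT0 (σ • T)
      (hN.stable σ T hTN)
    have hk' : σ • (T : FreyPt P) = k • (T : FreyPt P) := congrArg Subtype.val hk
    rw [hk']
    exact AddSubgroup.zsmul_mem_zmultiples _ k
  · push Not at hpm
    exact toric_local P N hN hℓ hℓp hbad hpm.1 hpm.2 A hA T hTN

/-- Frozen S12 from the term statement at every place (variant of `s12_of_leaves` without the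
`S15Statement` hypothesis). -/
theorem s12_of_terms
    (h2 : Loc2Statement) (hP : LocPStatement) (hG : LocGoodStatement)
    (hB : ∀ (P : FreyPackage), 17 ≤ P.p →
      ∀ N : Submodule (ZMod P.p) (Submodule.torsionBy ℤ (FreyPt P) P.p), IsCofixedLine P N →
      ∀ T : Submodule.torsionBy ℤ (FreyPt P) P.p, T ∈ N → T ≠ 0 →
      ∀ (ℓ : ℕ), ℓ.Prime → ℓ ≠ 2 → ℓ ≠ P.p → (ℓ : ℤ) ∣ P.a * P.b * P.c →
      ∀ A : ValuationSubring Qb, A.LiesOverPrime ℓ → TermAt P A (T : FreyPt P))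
    (P : FreyPackage) (hp : 17 ≤ P.p) :
    ¬ HasGaloisStableCofixedLine (K := AlgebraicClosure ℚ) ℚ P.freyCurve P.p := by
  refine s12_of_piVal (piVal_of_termAt ?_) P hp
  intro P hp N hN T hTN hT ℓ hℓ A hA
  by_cases hℓ2 : ℓ = 2
  · subst hℓ2
    exact h2 P hp N hN T hTN hT A hA
  by_cases hℓp : ℓ = P.p
  · subst hℓp
    exact hP P hp N hN T hTN hT A hA
  by_cases hdvd : (ℓ : ℤ) ∣ P.a * P.b * P.c
  · exact hB P hp N hN T hTN hT ℓ hℓ hℓ2 hℓp hdvd A hA
  · exact hG P hp N hN T hTN hT ℓ hℓ hℓ2 hℓp hdvd A hA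

/-- **Row S12, one-step route**: frozen S12 from a toric statement at the odd bad primes. -/
theorem s12_of_toricBad (hB : Fermat.Agent.S12.H411.ToricBadStatement)
    (P : FreyPackage) (hp : 17 ≤ P.p) :
    ¬ HasGaloisStableCofixedLine (K := AlgebraicClosure ℚ) ℚ P.freyCurve P.p :=
  s12_of_terms (Fermat.Agent.S12.H411.loc2_of_toric_h411 toric2Statement)
    Fermat.Agent.S12.H411.locP_h411 Fermat.Agent.S12.H411.locGood_h411
    (fun P hp N hN T hTN hT ℓ hℓ hℓ2 hℓp hdvd A hA =>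
      Fermat.Agent.S12.H411.termAt_of_inE0_h411 P hℓ hℓp A hA T
        (addOrderOf_eq_of_mem_torsion T hT) (hB P hp N hN T hTN ℓ hℓ hℓ2 hℓp hdvd A hA))
    P hp

/-- **Row S12 — FINAL**: frozen S12 from the three nodes of row S15 (GEO in subgroup form). -/
theorem s12_of_s15_nodes
    (hCusp : ∀ (p : ℕ) (hp : p.Prime), 17 ≤ p →
      haveI : NeZero p := ⟨hp.ne_zero⟩; CuspStatement p)
    (hGeo : ∀ (p : ℕ) (hp : p.Prime), 17 ≤ p →
      haveI : NeZero p := ⟨hp.ne_zero⟩; GeoSubStatement p)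
    (hDesc : ∀ (p : ℕ) (hp : p.Prime), 17 ≤ p →
      haveI : NeZero p := ⟨hp.ne_zero⟩; DescentStatement p)
    (P : FreyPackage) (hp : 17 ≤ P.p) :
    ¬ HasGaloisStableCofixedLine (K := AlgebraicClosure ℚ) ℚ P.freyCurve P.p :=
  s12_of_toricBad (toricBad_of_nodes hCusp hGeo hDesc) P hp

end Fermat.Agent.S12.H291
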