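import Fermat.Agent.S12.H291.ToricFrey

/-!
# S12 one-step route: small primes of good reduction (helper291)

`no_cofixed_of_good_small` : if `ℓ ∤ abc` is a prime with `2ℓ + 1 < p`, the Frey curve has no
cofixed line.  (A Frobenius element `σ` at `ℓ` has a nonzero fixed vector `Q ∈ E[p]`, because
`σ - 1` maps `E[p]` into the line `N`; `Q` reduces to an `𝔽_ℓ`-point of order `p`, and
`#E(𝔽_ℓ) ≤ 2ℓ + 1`.)  In particular `3 ∣ abc` whenever a cofixed line exists and `p ≥ 11`.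
-/

set_option autoImplicit false
set_option linter.unusedSectionVars false
set_option linter.style.haveILetI false

noncomputable section

open WeierstrassCurve WeierstrassCurve.Affine WeierstrassCurve.Affine.Point

namespace Fermat.Agent.S12.H291

open Fermat.Agent.Lib.Red.H290 Fermat.Agent.S15.H242

variable (P : FreyPackage)

/-- A prime not dividing `abc` does not divide the discriminant of the integral Frey model. -/
lemma not_dvd_freyΔ_of_not_dvd_abc {ℓ : ℕ} (hℓ : ℓ.Prime) (hgood : ¬ (ℓ : ℤ) ∣ P.a * P.b * P.c) :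
    ¬ (ℓ : ℤ) ∣ P.freyCurveInt.Δ := by
  intro h
  have hℓ' : Prime (ℓ : ℤ) := Nat.prime_iff_prime_int.mp hℓ
  have h1 : (ℓ : ℤ) ∣ (P.a * P.b * P.c) ^ (2 * P.p) := by
    rw [← Fermat.Agent.Ribet.H164.g1a_Δ]; exact dvd_mul_of_dvd_right h _
  exact hgood (hℓ'.dvd_of_dvd_pow h1)

/-- At a prime of good reduction the reduced curve is nonsingular. -/
lemma frey_redΔ_ne_zero {ℓ : ℕ} (hℓ : ℓ.Prime) (hgood : ¬ (ℓ : ℤ) ∣ P.a * P.b * P.c)
    (A : ValuationSubring Qb) (hA : A.LiesOverPrime ℓ) :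
    (P.freyCurveInt⁄(IsLocalRing.ResidueField A)).Δ ≠ 0 := by
  have hφ : KerMax A (IsLocalRing.residue A) := kerMax_residue A
  have h1 : A.valuation ((P.freyCurveInt.Δ : ℤ) : Qb) = 1 :=
    val_intCast_eq_one A hA hℓ (not_dvd_freyΔ_of_not_dvd_abc P hℓ hgood)
  have h2 := (rd_ne_zero_iff hφ (intCast_mem A _)).mpr h1
  rw [rd_intCast] at h2
  show (P.freyCurveInt.map (algebraMap ℤ (IsLocalRing.ResidueField A))).Δ ≠ 0
  rw [WeierstrassCurve.map_Δ, eq_intCast]
  exact h2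

/-- Every endomorphism-like map `σ` with `σ x - x ∈ N` for a proper submodule `N` has a nonzero
fixed vector in `E[p]`. -/
lemma exists_fixed_of_cofixed
    (N : Submodule (ZMod P.p) (Submodule.torsionBy ℤ (FreyPt P) P.p)) (hN : IsCofixedLine P N)
    (σ : Qb ≃ₐ[ℚ] Qb) :
    ∃ Q : Submodule.torsionBy ℤ (FreyPt P) P.p, Q ≠ 0 ∧ σ • Q = Q := by
  obtain ⟨T, hTN, hT0⟩ : ∃ T : Submodule.torsionBy ℤ (FreyPt P) P.p, T ∈ N ∧ T ≠ 0 := by
    by_contra h
    push Not at h
    exact hN.ne_bot ((Submodule.eq_bot_iff N).mpr h)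
  obtain ⟨S, hS⟩ : ∃ S : Submodule.torsionBy ℤ (FreyPt P) P.p, S ∉ N := by
    by_contra h
    push Not at h
    exact hN.ne_top (eq_top_iff.mpr fun x _ => h x)
  by_cases hD : σ • T - T = 0
  · exact ⟨T, hT0, sub_eq_zero.mp hD⟩
  · obtain ⟨j, hj⟩ := Fermat.Agent.S13.H64.frey_line P N hN.ne_top _ (hN.cofixed σ T) hD
      (σ • S - S) (hN.cofixed σ S)
    refine ⟨S - j • T, ?_, ?_⟩
    · intro h0
      apply hS
      have : S = j • T := sub_eq_zero.mp h0
      rw [this]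
      exact zsmul_mem hTN j
    · have e : σ • (S - j • T) = σ • S - j • (σ • T) := by
        rw [smul_sub, smul_comm]
      rw [e]
      have h1 : σ • S = S + j • (σ • T - T) := by rw [← hj]; abel
      rw [h1, smul_sub]
      abel

/-- **GOOD-SMALL.**  No cofixed line if some prime `ℓ ∤ abc` has `2ℓ + 1 < p`. -/
theorem no_cofixed_of_good_small
    (N : Submodule (ZMod P.p) (Submodule.torsionBy ℤ (FreyPt P) P.p)) (hN : IsCofixedLine P N)
    {ℓ : ℕ} (hℓ : ℓ.Prime) (hgood : ¬ (ℓ : ℤ) ∣ P.a * P.b * P.c) (hsmall : 2 * ℓ + 1 < P.p) :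
    False := by
  classical
  obtain ⟨A, hA⟩ := Fermat.Agent.S54.exists_valuationSubring_liesOver ℓ hℓ
  obtain ⟨σ, hσ⟩ := Fermat.Agent.S37.H99.exists_isFrobeniusAt ℓ hℓ A hA
  obtain ⟨Q, hQ0, hQfix⟩ := exists_fixed_of_cofixed P N hN σ
  have hred := frey_isRedOf P A
  have hΔ := frey_redΔ_ne_zero P hℓ hgood A hA
  have hE0 : InE0 A (IsLocalRing.residue A) (P.freyCurveInt⁄(IsLocalRing.ResidueField A))
      (Q : FreyPt P) := by
    rcases hQ : (Q : FreyPt P) with _ | ⟨x, y, hxy⟩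
    · exact inE0_zero
    · intro hx
      exact rd_nonsingular hred hΔ hx hxy.1
  have hfix : σ • (Q : FreyPt P) = (Q : FreyPt P) := congrArg Subtype.val hQfix
  have hord : addOrderOf (Q : FreyPt P) = P.p := addOrderOf_eq_of_mem_torsion Q hQ0
  have := le_of_frob_fixed P.pp P.freyCurve P.freyCurveInt A hℓ (by omega) hA hred σ hσ
    (Q : FreyPt P) hfix hord hE0
  omega

/-- If a cofixed line exists and `p ≥ 11`, then `3 ∣ abc`. -/
theorem three_dvd_abc_of_cofixed (hp : 11 ≤ P.p)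
    (N : Submodule (ZMod P.p) (Submodule.torsionBy ℤ (FreyPt P) P.p)) (hN : IsCofixedLine P N) :
    (3 : ℤ) ∣ P.a * P.b * P.c := by
  by_contra h
  exact no_cofixed_of_good_small P N hN Nat.prime_three (by exact_mod_cast h) (by omega)

end Fermat.Agent.S12.H291
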