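import Mathlib
import Fermat.Agent.S05.XId

/-!
# Jacobi's identity for a cyclic subgroup of odd order (helper291, row S12)

`W` a Weierstrass curve over a field `K` of characteristic `≠ 2` with full rational `2`-torsion:
`4x³ + b₂x² + 2b₄x + b₆ = 4 (x - e)(x - f)(x - g)`, `e, f, g` distinct.  `T₀` a point of odd order
`n`.  With `Π_r := ∏_{k ∈ Ico 1 n} (x(k • T₀) - r)`:

  `(g - e)ⁿ Π_f² - (g - f)ⁿ Π_e² - (f - e)ⁿ Π_g² = 0`        (`jacobi_identity`).

This is the relation `λ² + λ'² = 1` between the transformed moduli in Jacobi's `n`-th order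
transformation (equivalently: the quotient curve `E/⟨T₀⟩` has `2`-torsion differences
`(e_k - e_j)ⁿ Π_l / (Π_j Π_k)`), proved here WITHOUT constructing the isogeny: the polynomial
`(X - e) M_e - (X - f) M_f - c D` of degree `≤ n` has the `n + 1` roots `x(T + E_e)`, `x(T + E_f)`
(`T ∈ ⟨T₀⟩`).
-/

set_option autoImplicit false
set_option linter.unusedSectionVars false

namespace Fermat.Agent.S12.H291

open WeierstrassCurve WeierstrassCurve.Affine
open Fermat.Agent.S05.XId

variable {K : Type*} [Field K] [DecidableEq K] {W : Affine K}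

/-- The `x`-coordinate of a point (`0` at infinity). -/
def xc : W.Point → K
  | .zero => 0
  | .some x _ _ => x

@[simp] lemma xc_some {x y : K} (h : W.Nonsingular x y) : xc (Point.some x y h) = x := rfl

lemma xc_neg (P : W.Point) : xc (-P) = xc P := by
  cases P with
  | zero => rfl
  | some x y h => rfl

lemma exists_some_of_ne_zero {P : W.Point} (hP : P ≠ 0) :
    ∃ (x y : K) (h : W.Nonsingular x y), P = Point.some x y h := by
  cases P with
  | zero => exact absurd rfl hP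
  | some x y h => exact ⟨x, y, h, rfl⟩

/-- Two affine points with the same `x`-coordinate are equal or opposite. -/
lemma eq_or_eq_neg_of_xc_eq {P Q : W.Point} (hP : P ≠ 0) (hQ : Q ≠ 0) (h : xc P = xc Q) :
    P = Q ∨ P = -Q := by
  obtain ⟨x₁, y₁, h₁, rfl⟩ := exists_some_of_ne_zero hP
  obtain ⟨x₂, y₂, h₂, rfl⟩ := exists_some_of_ne_zero hQ
  simp only [xc_some] at h
  subst h
  rcases Y_eq_of_X_eq h₁.1 h₂.1 rfl with hy | hy
  · left; subst hy; rfl
  · right
    rw [Point.neg_some]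
    subst hy
    rfl

/-- Full rational `2`-torsion: `4x³ + b₂x² + 2b₄x + b₆ = 4 (x - e)(x - f)(x - g)`. -/
structure FullTwo (W : Affine K) (e f g : K) : Prop where
  two_ne : (2 : K) ≠ 0
  hb₂ : W.b₂ = -4 * (e + f + g)
  hb₄ : W.b₄ = 2 * (e * f + e * g + f * g)
  hb₆ : W.b₆ = -4 * (e * f * g)
  hef : e ≠ f
  heg : e ≠ g
  hfg : f ≠ g

namespace FullTwo

variable {e f g : K}

lemma swap23 (h : FullTwo W e f g) : FullTwo W e g f where
  two_ne := h.two_ne
  hb₂ := by rw [h.hb₂]; ring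
  hb₄ := by rw [h.hb₄]; ring
  hb₆ := by rw [h.hb₆]; ring
  hef := h.heg
  heg := h.hef
  hfg := h.hfg.symm

lemma swap12 (h : FullTwo W e f g) : FullTwo W f e g where
  two_ne := h.two_ne
  hb₂ := by rw [h.hb₂]; ring
  hb₄ := by rw [h.hb₄]; ring
  hb₆ := by rw [h.hb₆]; ring
  hef := h.hef.symm
  heg := h.hfg
  hfg := h.heg

lemma rot (h : FullTwo W e f g) : FullTwo W f g e := h.swap12.swap23

lemma rot' (h : FullTwo W e f g) : FullTwo W g e f := h.swap23.swap12

lemma four_ne (h : FullTwo W e f g) : (4 : K) ≠ 0 := by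
  have : (4 : K) = 2 * 2 := by norm_num
  rw [this]
  exact mul_ne_zero h.two_ne h.two_ne

lemma hb₈ (h : FullTwo W e f g) :
    W.b₈ = (W.b₂ * W.b₆ - W.b₄ ^ 2) / 4 := by
  rw [eq_div_iff h.four_ne, mul_comm]
  exact W.b_relation

lemma dblDen_eq (h : FullTwo W e f g) (x : K) :
    dblDen W x = 4 * ((x - e) * (x - f) * (x - g)) := by
  simp only [dblDen, h.hb₂, h.hb₄, h.hb₆]
  ring

/-- The `y`-coordinate of the `2`-torsion point with `x = e`. -/
def yTwo (W : Affine K) (e : K) : K := -(W.a₁ * e + W.a₃) / 2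

lemma equation_two (h : FullTwo W e f g) : W.Equation e (yTwo W e) := by
  rw [Affine.equation_iff]
  have h0 := h.dblDen_eq e
  simp only [dblDen, WeierstrassCurve.b₂, WeierstrassCurve.b₄, WeierstrassCurve.b₆, sub_self,
    zero_mul, mul_zero] at h0
  have h2 := h.two_ne
  simp only [yTwo]
  field_simp
  linear_combination (-1) * h0

lemma nonsingular_two (h : FullTwo W e f g) : W.Nonsingular e (yTwo W e) := by
  rw [Affine.nonsingular_iff]
  refine ⟨h.equation_two, Or.inl ?_⟩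
  have h2 := h.two_ne
  have hb2 := h.hb₂
  have hb4 := h.hb₄
  simp only [WeierstrassCurve.b₂, WeierstrassCurve.b₄] at hb2 hb4
  have key : W.a₁ * yTwo W e - (3 * e ^ 2 + 2 * W.a₂ * e + W.a₄) = -((e - f) * (e - g)) := by
    simp only [yTwo]
    field_simp
    linear_combination (-e) * hb2 - hb4
  intro h0
  have : (e - f) * (e - g) = 0 := by linear_combination key - h0
  rcases mul_eq_zero.mp this with h1 | h1
  · exact h.hef (sub_eq_zero.mp h1)
  · exact h.heg (sub_eq_zero.mp h1)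

/-- The `2`-torsion point `(e, -(a₁e + a₃)/2)`. -/
def twoPt (h : FullTwo W e f g) : W.Point := Point.some e (yTwo W e) h.nonsingular_two

lemma twoPt_ne_zero (h : FullTwo W e f g) : h.twoPt ≠ 0 := by
  intro h0
  exact Point.some_ne_zero _ h0

@[simp] lemma xc_twoPt (h : FullTwo W e f g) : xc h.twoPt = e := rfl

lemma negY_two (h : FullTwo W e f g) : W.negY e (yTwo W e) = yTwo W e := by
  have h2 := h.two_ne
  simp only [negY, yTwo]
  field_simp
  ring

lemma neg_twoPt (h : FullTwo W e f g) : -h.twoPt = h.twoPt := by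
  simp only [twoPt, Point.neg_some]
  congr 1
  exact h.negY_two

lemma two_nsmul_twoPt (h : FullTwo W e f g) : h.twoPt + h.twoPt = 0 := by
  have := h.neg_twoPt
  calc h.twoPt + h.twoPt = h.twoPt + -h.twoPt := by rw [this]
    _ = 0 := add_neg_cancel _

lemma hb₈' (h : FullTwo W e f g) :
    W.b₈ = 4 * (e + f + g) * (e * f * g) - (e * f + e * g + f * g) ^ 2 := by
  rw [h.hb₈, h.hb₂, h.hb₄, h.hb₆, div_eq_iff h.four_ne]
  ring

/-- `F_e(x₁, x₂) = (x₁ - e)(x₂ - e) - (e - f)(e - g)`. -/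
def FF (e f g : K) (x₁ x₂ : K) : K := (x₁ - e) * (x₂ - e) - (e - f) * (e - g)

/-- **Product formula**: `(x(P+T) - e)(x(P-T) - e)(x_P - x_T)² = F_e(x_P, x_T)²`. -/
lemma prod_formula (h : FullTwo W e f g) {P T : W.Point} (hP : P ≠ 0) (hT : T ≠ 0)
    (hx : xc P ≠ xc T) :
    (xc (P + T) - e) * (xc (P - T) - e) * (xc P - xc T) ^ 2 = FF e f g (xc P) (xc T) ^ 2 := by
  obtain ⟨x₁, y₁, h₁, rfl⟩ := exists_some_of_ne_zero hP
  obtain ⟨x₂, y₂, h₂, rfl⟩ := exists_some_of_ne_zero hT
  simp only [xc_some] at hx ⊢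
  obtain ⟨x₃, y₃, x₄, y₄, h₃, h₄, hadd, hsub, hsum, hprod⟩ := add_sub_some h₁ h₂ hx
  rw [hadd, hsub]
  simp only [xc_some]
  simp only [sumNum, prodNum, h.hb₈', h.hb₂, h.hb₄, h.hb₆] at hsum hprod
  simp only [FF]
  linear_combination hprod - e * hsum

/-- **Translation by a `2`-torsion point**: `(x(P + E_e) - e)(x_P - e) = (e - f)(e - g)`. -/
lemma translate_formula (h : FullTwo W e f g) {P : W.Point} (hP : P ≠ 0) (hx : xc P ≠ e) :
    P + h.twoPt ≠ 0 ∧ (xc (P + h.twoPt) - e) * (xc P - e) = (e - f) * (e - g) := by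
  obtain ⟨x₁, y₁, h₁, rfl⟩ := exists_some_of_ne_zero hP
  simp only [xc_some] at hx ⊢
  obtain ⟨x₃, y₃, x₄, y₄, h₃, h₄, hadd, hsub, hsum, hprod⟩ :=
    add_sub_some h₁ h.nonsingular_two hx
  have hadd' : Point.some x₁ y₁ h₁ + h.twoPt = Point.some x₃ y₃ h₃ := hadd
  have hsub' : Point.some x₁ y₁ h₁ - h.twoPt = Point.some x₄ y₄ h₄ := hsub
  rw [sub_eq_add_neg, h.neg_twoPt, hadd'] at hsub'
  have h34 : x₃ = x₄ := by
    have := congrArg xc hsub'
    simpa using this
  subst h34
  rw [hadd']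
  refine ⟨Point.some_ne_zero _, ?_⟩
  simp only [xc_some]
  simp only [sumNum, h.hb₂, h.hb₄, h.hb₆] at hsum
  have h2 := h.two_ne
  have hne : x₁ - e ≠ 0 := sub_ne_zero.mpr hx
  have h2ne : 2 * (x₁ - e) ≠ 0 := mul_ne_zero h2 hne
  apply mul_left_cancel₀ h2ne
  linear_combination hsum

end FullTwo

/-! ### Products over the nonzero elements of `ZMod n`, `n` odd -/

section Pairing

variable {n : ℕ} [NeZero n]

/-- The nonzero elements of `ZMod n`. -/
abbrev nz (n : ℕ) [NeZero n] : Finset (ZMod n) := (Finset.univ : Finset (ZMod n)).erase 0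

lemma mem_nz {a : ZMod n} : a ∈ nz n ↔ a ≠ 0 := by simp [nz]

lemma neg_mem_nz {a : ZMod n} (ha : a ∈ nz n) : -a ∈ nz n := by
  rw [mem_nz] at ha ⊢
  simpa using ha

lemma neg_ne_self_of_odd (hn : Odd n) {a : ZMod n} (ha : a ≠ 0) : -a ≠ a := by
  intro h
  rcases (ZMod.neg_eq_self_iff a).mp h with h0 | h0
  · exact ha h0
  · obtain ⟨k, hk⟩ := hn
    omega

lemma card_nz : (nz n).card = n - 1 := by
  rw [nz, Finset.card_erase_of_mem (Finset.mem_univ _), Finset.card_univ, ZMod.card]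

/-- If `φ(a) φ(-a) = ψ(a) ψ(-a)` for all `a ≠ 0` then `∏ φ = ∏ ψ` over the nonzero elements of
`ZMod n`, `n` odd. -/
lemma prod_nz_eq_of_pair (hn : Odd n) (φ ψ : ZMod n → K)
    (hpair : ∀ a : ZMod n, a ≠ 0 → φ a * φ (-a) = ψ a * ψ (-a)) :
    ∏ a ∈ nz n, φ a = ∏ a ∈ nz n, ψ a := by
  classical
  by_cases hψ : ∀ a ∈ nz n, ψ a ≠ 0
  · have hne : ∏ a ∈ nz n, ψ a ≠ 0 := Finset.prod_ne_zero_iff.mpr hψ
    have key : ∏ a ∈ nz n, (φ a / ψ a) = 1 := by
      refine Finset.prod_involution (fun a _ => -a) ?_ ?_ ?_ ?_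
      · intro a ha
        have ha0 : a ≠ 0 := mem_nz.mp ha
        have h1 := hψ a ha
        have h2 := hψ (-a) (neg_mem_nz ha)
        rw [div_mul_div_comm, hpair a ha0, div_self (mul_ne_zero h1 h2)]
      · intro a ha _
        exact neg_ne_self_of_odd hn (mem_nz.mp ha)
      · intro a ha
        exact neg_mem_nz ha
      · intro a ha
        simp
    rw [Finset.prod_div_distrib, div_eq_one_iff_eq hne] at key
    exact key
  · push Not at hψ
    obtain ⟨a₀, ha₀, h0⟩ := hψ
    have hR : ∏ a ∈ nz n, ψ a = 0 := Finset.prod_eq_zero ha₀ h0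
    have hp := hpair a₀ (mem_nz.mp ha₀)
    rw [h0, zero_mul] at hp
    rcases mul_eq_zero.mp hp with h1 | h1
    · rw [hR, Finset.prod_eq_zero ha₀ h1]
    · rw [hR, Finset.prod_eq_zero (neg_mem_nz ha₀) h1]

end Pairing

/-! ### A cyclic subgroup of odd order -/

section Cyclic

variable {n : ℕ} [NeZero n] {e f g : K} (T : ZMod n →+ W.Point)

/-- `Π_r = ∏_{a ≠ 0} (x(T a) - r)`. -/
noncomputable def piP (r : K) : K := ∏ a ∈ nz n, (xc (T a) - r)

variable {T}

lemma T_ne_zero (hT : Function.Injective T) {a : ZMod n} (ha : a ≠ 0) : T a ≠ 0 := by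
  intro h
  exact ha (hT (h.trans (map_zero T).symm))

lemma eq_zero_of_two_torsion_mem (hT : Function.Injective T) (hn : Odd n) {Q : W.Point}
    (hQ : Q + Q = 0) {c : ZMod n} (hc : Q = T c) : Q = 0 := by
  have h1 : T (c + c) = 0 := by rw [map_add, ← hc, hQ]
  have h2 : c + c = 0 := hT (h1.trans (map_zero T).symm)
  have h3 : -c = c := by
    rw [neg_eq_iff_add_eq_zero]
    exact h2
  by_cases hc0 : c = 0
  · rw [hc, hc0, map_zero]
  · exact absurd h3 (neg_ne_self_of_odd hn hc0)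

lemma twoPt_ne_T (hT : Function.Injective T) (hn : Odd n) (h : FullTwo W e f g) (c : ZMod n) :
    h.twoPt ≠ T c := fun hc =>
  h.twoPt_ne_zero (eq_zero_of_two_torsion_mem hT hn h.two_nsmul_twoPt hc)

lemma T_add_twoPt_ne_zero (hT : Function.Injective T) (hn : Odd n) (h : FullTwo W e f g)
    (a : ZMod n) : T a + h.twoPt ≠ 0 := by
  intro h0
  have : h.twoPt = T (-a) := by
    rw [map_neg]
    exact (neg_eq_of_add_eq_zero_right h0).symm ▸ rfl
  exact twoPt_ne_T hT hn h _ this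

lemma T_add_twoPt_ne_T (hT : Function.Injective T) (hn : Odd n) (h : FullTwo W e f g)
    (a b : ZMod n) : T a + h.twoPt ≠ T b := by
  intro h0
  have : h.twoPt = T (b - a) := by
    rw [map_sub, ← h0]
    abel
  exact twoPt_ne_T hT hn h _ this

lemma xc_T_ne (hT : Function.Injective T) (hn : Odd n) (h : FullTwo W e f g) {a : ZMod n}
    (ha : a ≠ 0) : xc (T a) ≠ e := by
  intro hx
  have hx' : xc (T a) = xc h.twoPt := by rw [hx, FullTwo.xc_twoPt]
  rcases eq_or_eq_neg_of_xc_eq (T_ne_zero hT ha) h.twoPt_ne_zero hx' with h1 | h1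
  · exact twoPt_ne_T hT hn h a h1.symm
  · rw [h.neg_twoPt] at h1
    exact twoPt_ne_T hT hn h a h1.symm

lemma piP_ne_zero (hT : Function.Injective T) (hn : Odd n) (h : FullTwo W e f g) :
    piP T e ≠ 0 := by
  rw [piP, Finset.prod_ne_zero_iff]
  intro a ha
  exact sub_ne_zero.mpr (xc_T_ne hT hn h (mem_nz.mp ha))

lemma xc_ne_xc_T (hT : Function.Injective T) {P : W.Point} (hP0 : P ≠ 0)
    (hPN : ∀ a, P ≠ T a) {a : ZMod n} (ha : a ≠ 0) : xc P ≠ xc (T a) := by
  intro hx
  rcases eq_or_eq_neg_of_xc_eq hP0 (T_ne_zero hT ha) hx with h1 | h1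
  · exact hPN a h1
  · rw [← map_neg] at h1
    exact hPN _ h1

/-- **Pair-product lemma.** -/
lemma prod_FF (hT : Function.Injective T) (hn : Odd n) (h : FullTwo W e f g) {P : W.Point}
    (hP0 : P ≠ 0) (hPN : ∀ a, P ≠ T a) :
    ∏ a ∈ nz n, FullTwo.FF e f g (xc P) (xc (T a)) =
      (∏ a ∈ nz n, (xc (P + T a) - e)) * ∏ a ∈ nz n, (xc P - xc (T a)) := by
  rw [← Finset.prod_mul_distrib]
  apply prod_nz_eq_of_pair hn
  intro a ha
  have hx := xc_ne_xc_T hT hP0 hPN ha
  have hpf := h.prod_formula hP0 (T_ne_zero hT ha) hx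
  rw [map_neg, xc_neg, ← sub_eq_add_neg]
  linear_combination -hpf

/-- **Evaluation lemma.**  For `ξ = x(T a₀ + E_f)`:
`(ξ - e) ∏_{a ≠ 0} (ξ - x(T a + E_e)) · Π_e Π_f = (f - e)ⁿ Π_g ∏_{a ≠ 0} (ξ - x(T a))`. -/
lemma eval_key (hT : Function.Injective T) (hn : Odd n) (h : FullTwo W e f g) (a₀ : ZMod n) :
    (xc (T a₀ + h.swap12.twoPt) - e) *
        (∏ a ∈ nz n, (xc (T a₀ + h.swap12.twoPt) - xc (T a + h.twoPt))) *
        (piP T e * piP T f)
      = (f - e) ^ n * piP T g * ∏ a ∈ nz n, (xc (T a₀ + h.swap12.twoPt) - xc (T a)) := by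
  set P : W.Point := T a₀ + h.swap12.twoPt with hPdef
  set ξ : K := xc P with hξ
  have hP0 : P ≠ 0 := T_add_twoPt_ne_zero hT hn h.swap12 a₀
  have hPN : ∀ a, P ≠ T a := fun a => T_add_twoPt_ne_T hT hn h.swap12 a₀ a
  -- Step 1
  have h1 : (∏ a ∈ nz n, (ξ - xc (T a + h.twoPt))) * piP T e
      = (∏ a ∈ nz n, (xc (P + T a) - e)) * ∏ a ∈ nz n, (ξ - xc (T a)) := by
    rw [← prod_FF hT hn h hP0 hPN, piP, ← Finset.prod_mul_distrib]
    refine Finset.prod_congr rfl fun a ha => ?_
    have htr := (h.translate_formula (T_ne_zero hT (mem_nz.mp ha))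
      (xc_T_ne hT hn h (mem_nz.mp ha))).2
    simp only [FullTwo.FF]
    linear_combination -htr
  -- Step 2
  have h2 : (ξ - e) * ∏ a ∈ nz n, (xc (P + T a) - e)
      = (f - e) * ∏ b ∈ nz n, (xc (T b + h.swap12.twoPt) - e) := by
    have e1 : (ξ - e) * ∏ a ∈ nz n, (xc (P + T a) - e)
        = ∏ a : ZMod n, (xc (P + T a) - e) := by
      have := Finset.mul_prod_erase (Finset.univ : Finset (ZMod n))
        (fun a => xc (P + T a) - e) (Finset.mem_univ 0)
      simp only [map_zero, add_zero] at this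
      exact this
    have e2 : ∏ a : ZMod n, (xc (P + T a) - e)
        = ∏ b : ZMod n, (xc (T b + h.swap12.twoPt) - e) := by
      refine Fintype.prod_equiv (Equiv.addLeft a₀) _ _ fun a => ?_
      simp only [Equiv.coe_addLeft, map_add, hPdef]
      congr 2
      abel
    have e3 : (f - e) * ∏ b ∈ nz n, (xc (T b + h.swap12.twoPt) - e)
        = ∏ b : ZMod n, (xc (T b + h.swap12.twoPt) - e) := by
      have := Finset.mul_prod_erase (Finset.univ : Finset (ZMod n))
        (fun b => xc (T b + h.swap12.twoPt) - e) (Finset.mem_univ 0)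
      simp only [map_zero, zero_add, FullTwo.xc_twoPt] at this
      exact this
    rw [e1, e2, e3]
  -- Step 3
  have h3 : (∏ b ∈ nz n, (xc (T b + h.swap12.twoPt) - e)) * piP T f
      = (f - e) ^ (n - 1) * piP T g := by
    rw [piP, piP, ← Finset.prod_mul_distrib, ← card_nz (n := n), ← Finset.prod_const,
      ← Finset.prod_mul_distrib]
    refine Finset.prod_congr rfl fun b hb => ?_
    have htr := (h.swap12.translate_formula (T_ne_zero hT (mem_nz.mp hb))
      (xc_T_ne hT hn h.swap12 (mem_nz.mp hb))).2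
    linear_combination htr
  have hn1 : (f - e) ^ n = (f - e) * (f - e) ^ (n - 1) := by
    rw [← pow_succ']
    congr 1
    have := NeZero.ne n
    omega
  rw [hn1]
  calc (ξ - e) * (∏ a ∈ nz n, (ξ - xc (T a + h.twoPt))) * (piP T e * piP T f)
      = (ξ - e) * ((∏ a ∈ nz n, (ξ - xc (T a + h.twoPt))) * piP T e) * piP T f := by ring
    _ = ((ξ - e) * ∏ a ∈ nz n, (xc (P + T a) - e)) * (∏ a ∈ nz n, (ξ - xc (T a))) * piP T f := by
        rw [h1]; ring
    _ = (f - e) * ((∏ b ∈ nz n, (xc (T b + h.swap12.twoPt) - e)) * piP T f) *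
          (∏ a ∈ nz n, (ξ - xc (T a))) := by
        rw [h2]; ring
    _ = (f - e) * (f - e) ^ (n - 1) * piP T g * ∏ a ∈ nz n, (ξ - xc (T a)) := by
        rw [h3]; ring

/-! ### The polynomial with too many roots -/

open Polynomial

variable (T)

/-- `M_e = ∏_{a ≠ 0} (X - x(T a + E_e))`. -/
noncomputable def polyM (h : FullTwo W e f g) : K[X] :=
  ∏ a ∈ nz n, (X - C (xc (T a + h.twoPt)))

/-- `D = ∏_{a ≠ 0} (X - x(T a))`. -/
noncomputable def polyD : K[X] := ∏ a ∈ nz n, (X - C (xc (T a)))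

/-- `L = Π_e Π_f ((X - e) M_e - (X - f) M_f) - (f - e)ⁿ Π_g D`. -/
noncomputable def polyL (h : FullTwo W e f g) : K[X] :=
  C (piP T e * piP T f) * ((X - C e) * polyM T h - (X - C f) * polyM T h.swap12)
    - C ((f - e) ^ n * piP T g) * polyD T

variable {T}

lemma natDegree_polyM (h : FullTwo W e f g) : (polyM T h).natDegree = n - 1 := by
  rw [polyM, natDegree_finsetProd_X_sub_C_eq_card, card_nz]

lemma natDegree_polyD : (polyD T).natDegree = n - 1 := by
  rw [polyD, natDegree_finsetProd_X_sub_C_eq_card, card_nz]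

lemma natDegree_polyL_le (h : FullTwo W e f g) : (polyL T h).natDegree ≤ n := by
  have hn0 := NeZero.ne n
  have hM : ∀ (r : K) (Q : K[X]), Q.natDegree = n - 1 → ((X - C r) * Q).natDegree ≤ n := by
    intro r Q hQ
    refine (natDegree_mul_le).trans ?_
    rw [natDegree_X_sub_C, hQ]
    omega
  have h1 : ((X - C e) * polyM T h - (X - C f) * polyM T h.swap12).natDegree ≤ n :=
    (natDegree_sub_le _ _).trans (max_le (hM e _ (natDegree_polyM h))
      (hM f _ (natDegree_polyM h.swap12)))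
  have h2 : (C (piP T e * piP T f) *
      ((X - C e) * polyM T h - (X - C f) * polyM T h.swap12)).natDegree ≤ n :=
    (natDegree_C_mul_le _ _).trans h1
  have h3 : (C ((f - e) ^ n * piP T g) * polyD T).natDegree ≤ n := by
    refine (natDegree_C_mul_le _ _).trans ?_
    rw [natDegree_polyD]
    omega
  exact (natDegree_sub_le _ _).trans (max_le h2 h3)

lemma eval_polyM (h : FullTwo W e f g) (ξ : K) :
    (polyM T h).eval ξ = ∏ a ∈ nz n, (ξ - xc (T a + h.twoPt)) := by
  simp [polyM, eval_prod]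

lemma eval_polyD (ξ : K) : (polyD T).eval ξ = ∏ a ∈ nz n, (ξ - xc (T a)) := by
  simp [polyD, eval_prod]

lemma eval_polyL (h : FullTwo W e f g) (ξ : K) :
    (polyL T h).eval ξ = piP T e * piP T f *
        ((ξ - e) * (polyM T h).eval ξ - (ξ - f) * (polyM T h.swap12).eval ξ)
      - (f - e) ^ n * piP T g * (polyD T).eval ξ := by
  simp [polyL]

/-- `(ξ - e) M_e(ξ) = 0` at `ξ = x(T a₀ + E_e)`. -/
lemma eval_self_eq_zero (h : FullTwo W e f g) (a₀ : ZMod n) :
    (xc (T a₀ + h.twoPt) - e) * (polyM T h).eval (xc (T a₀ + h.twoPt)) = 0 := by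
  by_cases ha : a₀ = 0
  · subst ha
    simp
  · rw [eval_polyM]
    have : ∏ a ∈ nz n, (xc (T a₀ + h.twoPt) - xc (T a + h.twoPt)) = 0 :=
      Finset.prod_eq_zero (i := a₀) (mem_nz.mpr ha) (sub_self _)
    rw [this, mul_zero]

lemma eval_polyL_root_f (hT : Function.Injective T) (hn : Odd n) (h : FullTwo W e f g)
    (a₀ : ZMod n) : (polyL T h).eval (xc (T a₀ + h.swap12.twoPt)) = 0 := by
  have hk := eval_key hT hn h a₀
  have h0 := eval_self_eq_zero (T := T) h.swap12 a₀
  rw [eval_polyL, h0, eval_polyM, eval_polyD]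
  linear_combination hk

lemma eval_polyL_root_e (hT : Function.Injective T) (hn : Odd n) (h : FullTwo W e f g)
    (a₀ : ZMod n) : (polyL T h).eval (xc (T a₀ + h.twoPt)) = 0 := by
  have hk := eval_key hT hn h.swap12 a₀
  have h0 := eval_self_eq_zero (T := T) h a₀
  have hodd : (e - f) ^ n = -(f - e) ^ n := by
    rw [← Odd.neg_pow hn, neg_sub]
  rw [hodd] at hk
  rw [eval_polyL, h0, eval_polyM, eval_polyD]
  linear_combination -hk

lemma twoPt_congr {f' g' : K} (h : FullTwo W e f g) (h' : FullTwo W e f' g') :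
    h'.twoPt = h.twoPt := rfl

lemma two_mul_card_image_ge (hT : Function.Injective T) (hn : Odd n) (h : FullTwo W e f g) :
    n ≤ 2 * ((Finset.univ : Finset (ZMod n)).image fun a => xc (T a + h.twoPt)).card := by
  have key := Finset.card_le_mul_card_image (f := fun a : ZMod n => xc (T a + h.twoPt))
    Finset.univ 2 ?_
  · simpa [ZMod.card] using key
  · intro y hy
    obtain ⟨a₁, -, rfl⟩ := Finset.mem_image.mp hy
    refine (Finset.card_le_card (?_ : _ ⊆ ({a₁, -a₁} : Finset (ZMod n)))).trans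
      Finset.card_le_two
    intro a ha
    simp only [Finset.mem_filter, Finset.mem_univ, true_and] at ha
    rcases eq_or_eq_neg_of_xc_eq (T_add_twoPt_ne_zero hT hn h a)
      (T_add_twoPt_ne_zero hT hn h a₁) ha with h1 | h1
    · have : T a = T a₁ := add_right_cancel h1
      simp [hT this]
    · have : T a = T (-a₁) := by
        rw [neg_add, h.neg_twoPt, ← map_neg] at h1
        exact add_right_cancel h1
      simp [hT this]

lemma disjoint_images (hT : Function.Injective T) (hn : Odd n) (h : FullTwo W e f g) :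
    Disjoint ((Finset.univ : Finset (ZMod n)).image fun a => xc (T a + h.twoPt))
      ((Finset.univ : Finset (ZMod n)).image fun a => xc (T a + h.swap12.twoPt)) := by
  rw [Finset.disjoint_left]
  intro x hx hx'
  obtain ⟨a, -, rfl⟩ := Finset.mem_image.mp hx
  obtain ⟨b, -, hb⟩ := Finset.mem_image.mp hx'
  have hQ2 : (h.twoPt + h.swap12.twoPt) + (h.twoPt + h.swap12.twoPt) = 0 := by
    have h1 := h.two_nsmul_twoPt
    have h2 := h.swap12.two_nsmul_twoPt
    calc (h.twoPt + h.swap12.twoPt) + (h.twoPt + h.swap12.twoPt)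
        = (h.twoPt + h.twoPt) + (h.swap12.twoPt + h.swap12.twoPt) := by abel
      _ = 0 := by rw [h1, h2, add_zero]
  have hmem : ∃ c : ZMod n, h.twoPt + h.swap12.twoPt = T c := by
    rcases eq_or_eq_neg_of_xc_eq (T_add_twoPt_ne_zero hT hn h.swap12 b)
      (T_add_twoPt_ne_zero hT hn h a) hb with h1 | h1
    · refine ⟨b - a, ?_⟩
      rw [map_sub]
      have h3 : h.twoPt = T b + h.swap12.twoPt - T a := by rw [h1]; abel
      have h4 := h.swap12.neg_twoPt
      calc h.twoPt + h.swap12.twoPt = (T b + h.swap12.twoPt - T a) + h.swap12.twoPt := by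
            rw [← h3]
        _ = T b - T a + (h.swap12.twoPt + h.swap12.twoPt) := by abel
        _ = T b - T a := by rw [h.swap12.two_nsmul_twoPt, add_zero]
    · refine ⟨-(a + b), ?_⟩
      rw [map_neg, map_add]
      have h3 : h.swap12.twoPt = -(T a + h.twoPt) - T b := by rw [← h1]; abel
      have h4 := h.neg_twoPt
      calc h.twoPt + h.swap12.twoPt = h.twoPt + (-(T a + h.twoPt) - T b) := by rw [← h3]
        _ = -(T a + T b) := by abel
  obtain ⟨c, hc⟩ := hmem
  have h0 := eq_zero_of_two_torsion_mem hT hn hQ2 hc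
  have h5 : h.twoPt = -h.swap12.twoPt := eq_neg_of_add_eq_zero_left h0
  rw [h.swap12.neg_twoPt] at h5
  have := congrArg xc h5
  simp only [FullTwo.xc_twoPt] at this
  exact h.hef this

/-- The polynomial `L` vanishes identically. -/
lemma polyL_eq_zero (hT : Function.Injective T) (hn : Odd n) (h : FullTwo W e f g) :
    polyL T h = 0 := by
  classical
  refine eq_zero_of_natDegree_lt_card_of_eval_eq_zero' (polyL T h)
    (((Finset.univ : Finset (ZMod n)).image fun a => xc (T a + h.twoPt)) ∪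
      ((Finset.univ : Finset (ZMod n)).image fun a => xc (T a + h.swap12.twoPt))) ?_ ?_
  · intro ξ hξ
    rcases Finset.mem_union.mp hξ with h1 | h1
    · obtain ⟨a, -, rfl⟩ := Finset.mem_image.mp h1
      exact eval_polyL_root_e hT hn h a
    · obtain ⟨a, -, rfl⟩ := Finset.mem_image.mp h1
      exact eval_polyL_root_f hT hn h a
  · rw [Finset.card_union_of_disjoint (disjoint_images hT hn h)]
    have h1 := two_mul_card_image_ge hT hn h
    have h2 := two_mul_card_image_ge hT hn h.swap12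
    have h3 := natDegree_polyL_le (T := T) h
    obtain ⟨k, hk⟩ := hn
    omega

/-- **Jacobi's identity** (indexed by `ZMod n`). -/
theorem jacobi_zmod (hT : Function.Injective T) (hn : Odd n) (h : FullTwo W e f g) :
    (g - e) ^ n * piP T f ^ 2 - (g - f) ^ n * piP T e ^ 2 - (f - e) ^ n * piP T g ^ 2 = 0 := by
  have hL := congrArg (Polynomial.eval g) (polyL_eq_zero hT hn h)
  rw [eval_polyL, eval_polyM, eval_polyM, eval_polyD, eval_zero] at hL
  have hk1 := eval_key hT hn h.swap23 (0 : ZMod n)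
  have hk2 := eval_key hT hn h.rot (0 : ZMod n)
  simp only [map_zero, zero_add, FullTwo.xc_twoPt] at hk1 hk2
  rw [twoPt_congr h h.swap23] at hk1
  rw [twoPt_congr h.swap12 h.rot] at hk2
  have hD : ∏ a ∈ nz n, (g - xc (T a)) ≠ 0 := by
    rw [Finset.prod_ne_zero_iff]
    intro a ha
    exact sub_ne_zero.mpr (xc_T_ne hT hn h.rot' (mem_nz.mp ha)).symm
  apply mul_left_cancel₀ hD
  rw [mul_zero]
  linear_combination (-piP T f) * hk1 + piP T e * hk2 + piP T g * hL

end Cyclic

/-! ### The statement for a point of odd order -/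

section Final

variable {e f g : K}

/-- `Π_r(T₀, n) = ∏_{k ∈ Ico 1 n} (x(k • T₀) - r)`. -/
noncomputable def piProd (T₀ : W.Point) (n : ℕ) (r : K) : K :=
  ∏ k ∈ Finset.Ico 1 n, (xc (k • T₀) - r)

/-- The homomorphism `ZMod n →+ W.Point`, `a ↦ a • T₀`, for `n • T₀ = 0`. -/
noncomputable def zmodHom {n : ℕ} (T₀ : W.Point) (h : n • T₀ = 0) : ZMod n →+ W.Point :=
  ZMod.lift n ⟨zmultiplesHom W.Point T₀, by
    rw [zmultiplesHom_apply, natCast_zsmul]
    exact h⟩

lemma zmodHom_natCast {n : ℕ} (T₀ : W.Point) (h : n • T₀ = 0) (k : ℕ) :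
    zmodHom T₀ h (k : ZMod n) = k • T₀ := by
  have := ZMod.lift_coe n (⟨zmultiplesHom W.Point T₀, by
    rw [zmultiplesHom_apply, natCast_zsmul]
    exact h⟩ : {f : ℤ →+ W.Point // f n = 0}) (k : ℤ)
  simp only [Int.cast_natCast, zmultiplesHom_apply, natCast_zsmul] at this
  exact this

lemma zmodHom_apply {n : ℕ} [NeZero n] (T₀ : W.Point) (h : n • T₀ = 0) (a : ZMod n) :
    zmodHom T₀ h a = a.val • T₀ := by
  conv_lhs => rw [← ZMod.natCast_zmod_val a]
  exact zmodHom_natCast T₀ h a.val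

lemma zmodHom_injective {n : ℕ} [NeZero n] {T₀ : W.Point} (hT₀ : addOrderOf T₀ = n) :
    Function.Injective (zmodHom T₀ (hT₀ ▸ addOrderOf_nsmul_eq_zero T₀)) := by
  rw [injective_iff_map_eq_zero]
  intro a ha
  rw [zmodHom_apply] at ha
  have h1 : n ∣ a.val := by
    have := addOrderOf_dvd_of_nsmul_eq_zero ha
    rwa [hT₀] at this
  have h2 := ZMod.val_lt a
  have h3 : a.val = 0 := Nat.eq_zero_of_dvd_of_lt h1 h2
  exact (ZMod.val_eq_zero a).mp h3

lemma piP_zmodHom {n : ℕ} [NeZero n] (T₀ : W.Point) (h : n • T₀ = 0) (r : K) :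
    piP (zmodHom T₀ h) r = piProd T₀ n r := by
  rw [piP, piProd]
  refine Finset.prod_nbij' (fun a => a.val) (fun k => (k : ZMod n)) ?_ ?_ ?_ ?_ ?_
  · intro a ha
    have ha0 : a ≠ 0 := mem_nz.mp ha
    rw [Finset.mem_Ico]
    exact ⟨ZMod.val_pos.mpr ha0, ZMod.val_lt a⟩
  · intro k hk
    rw [Finset.mem_Ico] at hk
    rw [mem_nz]
    intro h0
    rw [ZMod.natCast_eq_zero_iff] at h0
    have := Nat.le_of_dvd (by omega) h0
    omega
  · intro a _
    exact ZMod.natCast_zmod_val a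
  · intro k hk
    rw [Finset.mem_Ico] at hk
    exact ZMod.val_natCast_of_lt hk.2
  · intro a _
    rw [zmodHom_apply]

/-- **Jacobi's identity** for a point `T₀` of odd order `n` on a Weierstrass curve with full
rational `2`-torsion `e, f, g`:
`(g - e)ⁿ Π_f² - (g - f)ⁿ Π_e² - (f - e)ⁿ Π_g² = 0`, `Π_r = ∏_{k=1}^{n-1} (x(k T₀) - r)`. -/
theorem jacobi_identity (h : FullTwo W e f g) {n : ℕ} (hn : Odd n) {T₀ : W.Point}
    (hT₀ : addOrderOf T₀ = n) :
    (g - e) ^ n * piProd T₀ n f ^ 2 - (g - f) ^ n * piProd T₀ n e ^ 2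
      - (f - e) ^ n * piProd T₀ n g ^ 2 = 0 := by
  have : NeZero n := ⟨by obtain ⟨k, hk⟩ := hn; omega⟩
  have h0 : n • T₀ = 0 := hT₀ ▸ addOrderOf_nsmul_eq_zero T₀
  have key := jacobi_zmod (T := zmodHom T₀ h0) (zmodHom_injective hT₀) hn h
  rw [piP_zmodHom, piP_zmodHom, piP_zmodHom] at key
  exact key

end Final

end Fermat.Agent.S12.H291
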