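import Fermat.Agent.S12.H291.PiRat
import Fermat.Prelude.Def_EllipticCurve_ZeroComponentAt

/-!
# S12 one-step route: the four LOCAL leaves and the final glue (helper291)

For a cofixed line `N` of the Frey curve, a nonzero `T ∈ N`, a prime `ℓ` and a valuation subring
`A` of `ℚ̄` over `ℓ`, the **term statement** is

  `v_A(x_T - ε₃) = v_A(x_T)`  and  `v_A(x_T) = v_A(4) · v_A(x_T - ε₂)`        (`TermAt`)

(`ε₂ = a^p/4`, `ε₃ = -b^p/4`).  It holds
* at `ℓ = 2`      because `N` is the toric line there (`x_T` is a unit, `v(ε₂) = v(4)⁻¹`, `v(ε₃) < 1`);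
* at `ℓ = p`      because `N` lies in the kernel of reduction (`v(x_T) > 1`);
* at good `ℓ`     because `T`, `T ± E_j` have order prime to `ℓ` (all three differences are units);
* at bad odd `ℓ ≠ p` because `N` is the toric line — THIS is where frozen S15 is used.

`s12_of_leaves : S15Statement → Loc2 → LocP → LocGood → LocBad → frozen S12`, sorry-free.
-/

set_option autoImplicit false
set_option linter.unusedSectionVars false

noncomputable section

open WeierstrassCurve WeierstrassCurve.Affine WeierstrassCurve.Affine.Point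

namespace Fermat.Agent.S12.H291

/-- The frozen statement S15 (Mazur's Step 3), as a proposition. -/
def S15Statement : Prop :=
  ∀ {p : ℕ} (_ : p.Prime) (_ : p ∉ ({2, 3, 5, 7, 13} : Finset ℕ))
    (W : WeierstrassCurve ℤ) (_ : W.Δ ≠ 0)
    (Q : ((W.map (Int.castRingHom ℚ))⁄(AlgebraicClosure ℚ)).Point)
    (_ : ∀ σ : AlgebraicClosure ℚ ≃ₐ[ℚ] AlgebraicClosure ℚ, σ • Q = Q)
    (_ : addOrderOf Q = p)
    (_ : (2 : ℤ) ∣ W.Δ) (_ : ¬ (2 : ℤ) ∣ W.c₄)
    (_ : ∀ A : ValuationSubring (AlgebraicClosure ℚ), A.LiesOverPrime 2 →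
      ¬ W.InZeroComponentAt A Q)
    (_ : (3 : ℤ) ∣ W.Δ) (_ : ¬ (3 : ℤ) ∣ W.c₄)
    (_ : ∀ A : ValuationSubring (AlgebraicClosure ℚ), A.LiesOverPrime 3 →
      ¬ W.InZeroComponentAt A Q)
    {ℓ : ℕ} (_ : ℓ.Prime) (_ : ℓ ≠ p) (_ : (ℓ : ℤ) ∣ W.Δ) (_ : ¬ (ℓ : ℤ) ∣ W.c₄)
    (A : ValuationSubring (AlgebraicClosure ℚ)) (_ : A.LiesOverPrime ℓ),
    ¬ W.InZeroComponentAt A Q

/-- The term statement at `A` for the point `T`. -/
def TermAt (P : FreyPackage) (A : ValuationSubring Qb) (T : FreyPt P) : Prop :=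
  A.valuation (xc T - eps₃ P) = A.valuation (xc T - 0) ∧
    A.valuation (xc T - 0) = A.valuation (4 : Qb) * A.valuation (xc T - eps₂ P)

/-- The hypotheses on the line `N`: a cofixed line of the Frey representation. -/
structure IsCofixedLine (P : FreyPackage)
    (N : Submodule (ZMod P.p) (Submodule.torsionBy ℤ (FreyPt P) P.p)) : Prop where
  stable : IsGaloisStable (K := Qb) ℚ N
  ne_bot : N ≠ ⊥
  ne_top : N ≠ ⊤
  cofixed : ∀ σ : Qb ≃ₐ[ℚ] Qb, ∀ x : Submodule.torsionBy ℤ (FreyPt P) P.p, σ • x - x ∈ N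

/-- **LEAF Loc2**: the term statement at `ℓ = 2`. -/
def Loc2Statement : Prop :=
  ∀ (P : FreyPackage), 17 ≤ P.p →
    ∀ N : Submodule (ZMod P.p) (Submodule.torsionBy ℤ (FreyPt P) P.p), IsCofixedLine P N →
    ∀ T : Submodule.torsionBy ℤ (FreyPt P) P.p, T ∈ N → T ≠ 0 →
    ∀ A : ValuationSubring Qb, A.LiesOverPrime 2 → TermAt P A (T : FreyPt P)

/-- **LEAF LocP**: the term statement at `ℓ = p`. -/
def LocPStatement : Prop :=
  ∀ (P : FreyPackage), 17 ≤ P.p →
    ∀ N : Submodule (ZMod P.p) (Submodule.torsionBy ℤ (FreyPt P) P.p), IsCofixedLine P N →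
    ∀ T : Submodule.torsionBy ℤ (FreyPt P) P.p, T ∈ N → T ≠ 0 →
    ∀ A : ValuationSubring Qb, A.LiesOverPrime P.p → TermAt P A (T : FreyPt P)

/-- **LEAF LocGood**: the term statement at the primes `ℓ ∤ 2·p·abc`. -/
def LocGoodStatement : Prop :=
  ∀ (P : FreyPackage), 17 ≤ P.p →
    ∀ N : Submodule (ZMod P.p) (Submodule.torsionBy ℤ (FreyPt P) P.p), IsCofixedLine P N →
    ∀ T : Submodule.torsionBy ℤ (FreyPt P) P.p, T ∈ N → T ≠ 0 →
    ∀ (ℓ : ℕ), ℓ.Prime → ℓ ≠ 2 → ℓ ≠ P.p → ¬ (ℓ : ℤ) ∣ P.a * P.b * P.c →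
    ∀ A : ValuationSubring Qb, A.LiesOverPrime ℓ → TermAt P A (T : FreyPt P)

/-- **LEAF LocBad** (the only place where frozen S15 is used): the term statement at the odd
primes `ℓ ≠ p` dividing `abc`. -/
def LocBadStatement : Prop :=
  S15Statement →
  ∀ (P : FreyPackage), 17 ≤ P.p →
    ∀ N : Submodule (ZMod P.p) (Submodule.torsionBy ℤ (FreyPt P) P.p), IsCofixedLine P N →
    ∀ T : Submodule.torsionBy ℤ (FreyPt P) P.p, T ∈ N → T ≠ 0 →
    ∀ (ℓ : ℕ), ℓ.Prime → ℓ ≠ 2 → ℓ ≠ P.p → (ℓ : ℤ) ∣ P.a * P.b * P.c →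
    ∀ A : ValuationSubring Qb, A.LiesOverPrime ℓ → TermAt P A (T : FreyPt P)

/-- The local node `PiValStatement` from the term statement at every `A`. -/
theorem piVal_of_termAt
    (h : ∀ (P : FreyPackage), 17 ≤ P.p →
      ∀ N : Submodule (ZMod P.p) (Submodule.torsionBy ℤ (FreyPt P) P.p), IsCofixedLine P N →
      ∀ T : Submodule.torsionBy ℤ (FreyPt P) P.p, T ∈ N → T ≠ 0 →
      ∀ (ℓ : ℕ), ℓ.Prime → ∀ A : ValuationSubring Qb, A.LiesOverPrime ℓ →
        TermAt P A (T : FreyPt P)) : PiValStatement := by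
  intro P hp N hstab hbot htop hcof T₀ hT₀N hT₀ ℓ hℓ A hA
  have hN : IsCofixedLine P N := ⟨hstab, hbot, htop, hcof⟩
  have hord := addOrderOf_eq_of_mem_torsion T₀ hT₀
  have hterm : ∀ k ∈ Finset.Ico 1 P.p, TermAt P A (k • (T₀ : FreyPt P)) := by
    intro k hk
    rw [Finset.mem_Ico] at hk
    have hkN : k • T₀ ∈ N := N.nsmul_mem hT₀N k
    have hk0 : k • T₀ ≠ 0 := by
      intro h0
      have h1 : k • (T₀ : FreyPt P) = 0 := by
        have := congrArg Subtype.val h0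
        exact this
      have h2 := addOrderOf_dvd_of_nsmul_eq_zero h1
      rw [hord] at h2
      have := Nat.le_of_dvd (by omega) h2
      omega
    exact h P hp N hN (k • T₀) hkN hk0 ℓ hℓ A hA
  simp only [piProd, map_prod]
  refine ⟨Finset.prod_congr rfl fun k hk => (hterm k hk).1, ?_⟩
  have hcard : (Finset.Ico 1 P.p).card = P.p - 1 := by simp
  rw [← hcard, ← Finset.prod_const, ← Finset.prod_mul_distrib]
  exact Finset.prod_congr rfl fun k hk => (hterm k hk).2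

/-- **Row S12, one-step route, FINAL GLUE**: frozen S12 from frozen S15 and the four local
leaves. -/
theorem s12_of_leaves (hS15 : S15Statement) (h2 : Loc2Statement) (hP : LocPStatement)
    (hG : LocGoodStatement) (hB : LocBadStatement) (P : FreyPackage) (hp : 17 ≤ P.p) :
    ¬ HasGaloisStableCofixedLine (K := AlgebraicClosure ℚ) ℚ P.freyCurve P.p := by
  refine s12_of_piVal (piVal_of_termAt ?_) P hp
  intro P hp N hN T hTN hT ℓ hℓ A hA
  by_cases hℓ2 : ℓ = 2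
  · subst hℓ2
    exact h2 P hp N hN T hTN hT A hA
  by_cases hℓp : ℓ = P.p
  · subst hℓp
    exact hP P hp N hN T hTN hT A hA
  by_cases hdvd : (ℓ : ℤ) ∣ P.a * P.b * P.c
  · exact hB hS15 P hp N hN T hTN hT ℓ hℓ hℓ2 hℓp hdvd A hA
  · exact hG P hp N hN T hTN hT ℓ hℓ hℓ2 hℓp hdvd A hA

end Fermat.Agent.S12.H291
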