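import Fermat.Agent.S15.H542.ModNode
import Fermat.Agent.S12.H291.Jacobi

/-!
# Node MOD of row S15 for Galois-STABLE subgroups (helper291, for row S12)

`moduliPlaceSub : ModuliPlaceSubStatement` : the statement of `S15.H542.ModuliPlaceStatement`
with the hypothesis "`Q` is Galois-fixed" weakened to "`⟨Q⟩` is Galois-stable"
(`∀ σ, σ • Q ∈ AddSubgroup.zmultiples Q`).  The only change is MOD-V: Vélu's sums
`t = ∑_{k ≤ (p-1)/2} t(x(kQ))`, `w = ∑ ...` are Galois-invariant because `σ` permutes the classes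
`±k` of `(ℤ/p)^× / ±1`.

Used by row S12 (one-step route): `S12.H111.GeoSubStatement` is the node GEO in this form.
-/

set_option autoImplicit false
set_option linter.unusedSectionVars false
set_option linter.style.haveILetI false

noncomputable section

open WeierstrassCurve AlgebraicCurve ModularCurve
open scoped WeierstrassCurve.Affine

namespace Fermat.Agent.S12.H291

open Fermat.Agent.S15.H542

section HalfSum

variable {M : Type*} [AddCommMonoid M]

/-- A sum over `1 ≤ k < 2h+1` of a function symmetric under `k ↦ 2h+1-k` is twice the sum over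
`1 ≤ k ≤ h`. -/
lemma sum_Ico_eq_two_nsmul_sum_Icc (h : ℕ) (f : ℕ → M)
    (hf : ∀ k, 1 ≤ k → k ≤ h → f (2 * h + 1 - k) = f k) :
    ∑ k ∈ Finset.Ico 1 (2 * h + 1), f k = 2 • ∑ k ∈ Finset.Icc 1 h, f k := by
  have h1 : Finset.Ico 1 (2 * h + 1) = Finset.Icc 1 h ∪ Finset.Icc (h + 1) (2 * h) := by
    ext k
    simp only [Finset.mem_Ico, Finset.mem_union, Finset.mem_Icc]
    omega
  have hdisj : Disjoint (Finset.Icc 1 h) (Finset.Icc (h + 1) (2 * h)) := by
    rw [Finset.disjoint_left]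
    intro k hk hk'
    rw [Finset.mem_Icc] at hk hk'
    omega
  rw [h1, Finset.sum_union hdisj, two_nsmul]
  congr 1
  refine Finset.sum_nbij' (fun k => 2 * h + 1 - k) (fun k => 2 * h + 1 - k) ?_ ?_ ?_ ?_ ?_
  · intro k hk
    rw [Finset.mem_Icc] at hk ⊢
    omega
  · intro k hk
    rw [Finset.mem_Icc] at hk ⊢
    omega
  · intro k hk
    rw [Finset.mem_Icc] at hk
    omega
  · intro k hk
    rw [Finset.mem_Icc] at hk
    omega
  · intro k hk
    rw [Finset.mem_Icc] at hk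
    have := hf (2 * h + 1 - k) (by omega) (by omega)
    rw [← this]
    congr 1
    omega

end HalfSum

section Stable

variable (F : WeierstrassCurve ℚ) (Q : (F⁄(AlgebraicClosure ℚ)).toAffine.Point)
  (σ : AlgebraicClosure ℚ ≃ₐ[ℚ] AlgebraicClosure ℚ)

lemma xOf_eq_xc (P : (F⁄(AlgebraicClosure ℚ)).toAffine.Point) : xOf P = xc P := by
  cases P <;> rfl

lemma xOf_smul_h291 (P : (F⁄(AlgebraicClosure ℚ)).toAffine.Point) :
    xOf (σ • P) = σ (xOf P) := by
  rw [WeierstrassCurve.Affine.Point.algEquiv_smul_def]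
  exact xOf_map_algEquiv F σ P

/-- **Galois-invariance of half-sums.**  If `Q` has odd prime order `p` and `σ • Q ∈ ⟨Q⟩`, then
every sum `∑_{1 ≤ k ≤ (p-1)/2} g(x(kQ))` with `g` commuting with `σ` is fixed by `σ`. -/
theorem sigma_halfSum_of_stable {p : ℕ} (hp : p.Prime) (hp2 : p ≠ 2)
    (hord : addOrderOf Q = p) (hstab : σ • Q ∈ AddSubgroup.zmultiples Q)
    (g : AlgebraicClosure ℚ → AlgebraicClosure ℚ) (hg : ∀ x, σ (g x) = g (σ x)) :
    σ (∑ k ∈ Finset.Icc 1 ((p - 1) / 2), g (xOf (k • Q))) =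
      ∑ k ∈ Finset.Icc 1 ((p - 1) / 2), g (xOf (k • Q)) := by
  classical
  haveI : Fact p.Prime := ⟨hp⟩
  haveI : NeZero p := ⟨hp.ne_zero⟩
  obtain ⟨m, hm⟩ := AddSubgroup.mem_zmultiples_iff.mp hstab
  have hpQ : p • Q = 0 := by rw [← hord]; exact addOrderOf_nsmul_eq_zero Q
  have hQ0 : Q ≠ 0 := by
    intro h0
    rw [h0, addOrderOf_zero] at hord
    exact hp.one_lt.ne hord
  -- the full sum
  set T := zmodHom Q hpQ with hT
  have hTk : ∀ k : ℕ, T (k : ZMod p) = k • Q := fun k => zmodHom_natCast Q hpQ k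
  set c : ZMod p := (m : ZMod p) with hc
  have hc0 : c ≠ 0 := by
    intro h0
    have h1 : T c = 0 := by rw [h0, map_zero]
    have h2 : T c = m • Q := by
      have := ZMod.lift_coe p (⟨zmultiplesHom _ Q, by
        rw [zmultiplesHom_apply, natCast_zsmul]
        exact hpQ⟩ : {f : ℤ →+ (F⁄(AlgebraicClosure ℚ)).toAffine.Point // f p = 0}) m
      simp only [zmultiplesHom_apply] at this
      exact this
    rw [h2, hm] at h1
    have h3 : Q = 0 := by
      have := congrArg (fun R => σ⁻¹ • R) h1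
      simpa using this
    exact hQ0 h3
  have hσT : ∀ a : ZMod p, σ • T a = T (a * c) := by
    intro a
    rw [hT, zmodHom_apply, ← natCast_zsmul, WeierstrassCurve.Affine.Point.algEquiv_smul_zsmul,
      ← hm, smul_smul]
    have e : a * c = (((a.val : ℤ) * m : ℤ) : ZMod p) := by
      rw [hc]
      push_cast
      rw [ZMod.natCast_zmod_val]
    rw [e]
    have := ZMod.lift_coe p (⟨zmultiplesHom _ Q, by
      rw [zmultiplesHom_apply, natCast_zsmul]
      exact hpQ⟩ : {f : ℤ →+ (F⁄(AlgebraicClosure ℚ)).toAffine.Point // f p = 0})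
      ((a.val : ℤ) * m)
    simp only [zmultiplesHom_apply] at this
    exact this.symm
  have hfull : ∑ k ∈ Finset.Ico 1 p, g (xOf (k • Q)) = ∑ a ∈ nz p, g (xOf (T a)) := by
    symm
    refine Finset.sum_nbij' (fun a => a.val) (fun k => (k : ZMod p)) ?_ ?_ ?_ ?_ ?_
    · intro a ha
      have ha0 : a ≠ 0 := mem_nz.mp ha
      rw [Finset.mem_Ico]
      exact ⟨ZMod.val_pos.mpr ha0, ZMod.val_lt a⟩
    · intro k hk
      rw [Finset.mem_Ico] at hk
      rw [mem_nz]
      intro h0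
      have := (ZMod.natCast_eq_zero_iff k p).mp h0
      have := Nat.le_of_dvd (by omega) this
      omega
    · intro a _
      exact ZMod.natCast_zmod_val a
    · intro k hk
      rw [Finset.mem_Ico] at hk
      exact ZMod.val_natCast_of_lt hk.2
    · intro a _
      rw [hT, zmodHom_apply]
  have hσfull : σ (∑ k ∈ Finset.Ico 1 p, g (xOf (k • Q))) =
      ∑ k ∈ Finset.Ico 1 p, g (xOf (k • Q)) := by
    rw [hfull, map_sum]
    refine Finset.sum_nbij' (fun a => a * c) (fun b => b * c⁻¹) ?_ ?_ ?_ ?_ ?_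
    · intro a ha
      rw [mem_nz] at ha ⊢
      exact mul_ne_zero ha hc0
    · intro b hb
      rw [mem_nz] at hb ⊢
      exact mul_ne_zero hb (inv_ne_zero hc0)
    · intro a _
      rw [mul_assoc, mul_inv_cancel₀ hc0, mul_one]
    · intro b _
      rw [mul_assoc, inv_mul_cancel₀ hc0, mul_one]
    · intro a _
      rw [hg, ← xOf_smul_h291, hσT]
  -- half sums
  obtain ⟨h, hh⟩ : ∃ h, p = 2 * h + 1 := by
    rcases hp.eq_two_or_odd with h2 | hodd
    · exact absurd h2 hp2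
    · exact ⟨p / 2, by omega⟩
  have hhalf : (p - 1) / 2 = h := by omega
  rw [hhalf]
  have hsym : ∀ k, 1 ≤ k → k ≤ h → g (xOf ((2 * h + 1 - k) • Q)) = g (xOf (k • Q)) := by
    intro k hk1 hkh
    have e : (2 * h + 1 - k) • Q = -(k • Q) := by
      rw [eq_neg_iff_add_eq_zero, ← add_nsmul, Nat.sub_add_cancel (by omega), ← hh]
      exact hpQ
    rw [e, xOf_eq_xc, xOf_eq_xc, xc_neg]
  have h2S := sum_Ico_eq_two_nsmul_sum_Icc h (fun k => g (xOf (k • Q))) hsym
  rw [← hh] at h2S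
  rw [h2S, map_nsmul] at hσfull
  have h2 : (2 : ℕ) • σ (∑ k ∈ Finset.Icc 1 h, g (xOf (k • Q))) =
      (2 : ℕ) • ∑ k ∈ Finset.Icc 1 h, g (xOf (k • Q)) := hσfull
  rw [nsmul_eq_mul, nsmul_eq_mul] at h2
  exact mul_left_cancel₀ (by norm_num) h2

theorem sigma_veluT_of_stable {p : ℕ} (hp : p.Prime) (hp2 : p ≠ 2)
    (hord : addOrderOf Q = p) (hstab : σ • Q ∈ AddSubgroup.zmultiples Q) :
    σ (veluT (F⁄(AlgebraicClosure ℚ)) Q p) = veluT (F⁄(AlgebraicClosure ℚ)) Q p := by
  unfold veluT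
  refine sigma_halfSum_of_stable F Q σ hp hp2 hord hstab _ fun x => ?_
  unfold veluT1
  simp only [map_add, map_mul, map_pow, map_ofNat, sigma_b₂, sigma_b₄]

theorem sigma_veluW_of_stable {p : ℕ} (hp : p.Prime) (hp2 : p ≠ 2)
    (hord : addOrderOf Q = p) (hstab : σ • Q ∈ AddSubgroup.zmultiples Q) :
    σ (veluW (F⁄(AlgebraicClosure ℚ)) Q p) = veluW (F⁄(AlgebraicClosure ℚ)) Q p := by
  unfold veluW
  refine sigma_halfSum_of_stable F Q σ hp hp2 hord hstab
    (fun x => veluU1 (F⁄(AlgebraicClosure ℚ)) x + x * veluT1 (F⁄(AlgebraicClosure ℚ)) x)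
    fun x => ?_
  unfold veluT1 veluU1
  simp only [map_add, map_mul, map_pow, map_ofNat, sigma_b₂, sigma_b₄, sigma_b₆]

/-- Vélu's curve of a point generating a stable subgroup is fixed. -/
theorem veluCurve_map_eq_of_stable {p : ℕ} (hp : p.Prime) (hp2 : p ≠ 2)
    (hord : addOrderOf Q = p) (hstab : σ • Q ∈ AddSubgroup.zmultiples Q) :
    (veluCurve (F⁄(AlgebraicClosure ℚ)) Q p).map (σ : AlgebraicClosure ℚ →+* AlgebraicClosure ℚ)
      = veluCurve (F⁄(AlgebraicClosure ℚ)) Q p := by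
  have hT := sigma_veluT_of_stable F Q σ hp hp2 hord hstab
  have hW := sigma_veluW_of_stable F Q σ hp hp2 hord hstab
  have h2 := sigma_b₂ F σ
  have ha : ∀ a : ℚ, σ (algebraMap ℚ (AlgebraicClosure ℚ) a) = algebraMap ℚ (AlgebraicClosure ℚ) a :=
    fun a => σ.commutes a
  ext
  · simp only [WeierstrassCurve.map_a₁, veluCurve, WeierstrassCurve.baseChange]
    exact ha _
  · simp only [WeierstrassCurve.map_a₂, veluCurve, WeierstrassCurve.baseChange]
    exact ha _
  · simp only [WeierstrassCurve.map_a₃, veluCurve, WeierstrassCurve.baseChange]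
    exact ha _
  · simp only [WeierstrassCurve.map_a₄, veluCurve, RingHom.coe_coe, map_sub, map_mul, map_ofNat,
      hT]
    congr 1
    exact ha _
  · simp only [WeierstrassCurve.map_a₆, veluCurve, RingHom.coe_coe, map_sub, map_mul, map_ofNat,
      hT, hW, h2]
    congr 2
    exact ha _

theorem sigma_jInv_veluCurve_of_stable {p : ℕ} (hp : p.Prime) (hp2 : p ≠ 2)
    (hord : addOrderOf Q = p) (hstab : σ • Q ∈ AddSubgroup.zmultiples Q) :
    σ (jInv (veluCurve (F⁄(AlgebraicClosure ℚ)) Q p)) =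
      jInv (veluCurve (F⁄(AlgebraicClosure ℚ)) Q p) := by
  have h := veluCurve_map_eq_of_stable F Q σ hp hp2 hord hstab
  have h1 : jInv ((veluCurve (F⁄(AlgebraicClosure ℚ)) Q p).map
      (σ : AlgebraicClosure ℚ →+* AlgebraicClosure ℚ)) =
      σ (jInv (veluCurve (F⁄(AlgebraicClosure ℚ)) Q p)) := by
    simp only [jInv, WeierstrassCurve.map_c₄, WeierstrassCurve.map_Δ, RingHom.coe_coe, map_div₀,
      map_pow]
  rw [← h1, h]

end Stable

/-- **MOD-V, subgroup form.** -/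
theorem veluRationalSub {p : ℕ} (hp : p.Prime) (hp2 : p ≠ 2) (W : WeierstrassCurve ℤ)
    (Q : (curveBar W).toAffine.Point) (hord : addOrderOf Q = p)
    (hQstab : ∀ σ : AlgebraicClosure ℚ ≃ₐ[ℚ] AlgebraicClosure ℚ,
      σ • Q ∈ AddSubgroup.zmultiples Q) :
    ∃ r : ℚ, algebraMap ℚ (AlgebraicClosure ℚ) r = jInv (veluCurve (curveBar W) Q p) := by
  have := isGalois_Qbar_h542
  exact (InfiniteGalois.mem_range_algebraMap_iff_fixed (k := ℚ) (K := AlgebraicClosure ℚ)
    (jInv (veluCurve (curveBar W) Q p))).mpr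
    (fun σ => sigma_jInv_veluCurve_of_stable (W.map (Int.castRingHom ℚ)) Q σ hp hp2 hord
      (hQstab σ))

/-- **MOD, subgroup form**: the statement of `ModuliPlaceStatement` for a point `Q` generating
a Galois-stable subgroup. -/
def ModuliPlaceSubStatement : Prop :=
  ∀ (p : ℕ) [NeZero p] (_hp : p.Prime) (_hp5 : 5 ≤ p)
    (W : WeierstrassCurve ℤ) (_hΔ : W.Δ ≠ 0)
    (Q : (curveBar W).toAffine.Point)
    (_hQstab : ∀ σ : AlgebraicClosure ℚ ≃ₐ[ℚ] AlgebraicClosure ℚ,
      σ • Q ∈ AddSubgroup.zmultiples Q)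
    (_hQord : addOrderOf Q = p)
    (_h2Δ : (2 : ℤ) ∣ W.Δ) (_h2c₄ : ¬ (2 : ℤ) ∣ W.c₄),
    (veluCurve (curveBar W) Q p).Δ ≠ 0 ∧
    (∃ r : ℚ, algebraMap ℚ (AlgebraicClosure ℚ) r = jInv (veluCurve (curveBar W) Q p)) ∧
    ∃ P : Place (AlgebraicClosure ℚ) (modularFunctionFieldBar p),
      IsGaloisFixedPlace P ∧
      HasValueAt P (jBar p) (jInv (curveBar W)) ∧
      HasValueAt P (jNBar p) (jInv (veluCurve (curveBar W) Q p))

/-- GLUE, subgroup form. -/
theorem moduliPlaceSub_of_pieces (hA1 : PlaceOfModularPairStatement)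
    (hA2 : PlaceUniqueStatement) (hB : VeluModularPairStatement) : ModuliPlaceSubStatement := by
  intro p _ hp hp5 W hΔ Q hQstab hQord h2Δ h2c₄
  have hp2 : p ≠ 2 := by omega
  obtain ⟨hΔ', hpair⟩ := hB p hp hp2 (curveBar W) (Δ_curveBar_ne_zero W hΔ) Q hQord
  obtain ⟨r', hr'⟩ := veluRationalSub hp hp2 W Q hQord hQstab
  refine ⟨hΔ', ⟨r', hr'⟩, ?_⟩
  obtain ⟨P, hP1, hP2⟩ := hA1 p hp _ _ hpair
  refine ⟨P, ?_, hP1, hP2⟩
  intro σ
  have hj := jInv_curveBar W
  rw [hj] at hP1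
  rw [← hr'] at hP2
  have hr := padicValRat_two_j_neg W hΔ h2Δ h2c₄
  refine hA2 p hp hp2 _ hr (algebraMap ℚ (AlgebraicClosure ℚ) r') _ _ ?_ ?_ hP1 hP2
  · exact hasValueAt_smul_of_rational σ P (jBar p) jq rfl _ hP1
  · exact hasValueAt_smul_of_rational σ P (jNBar p) (qExpand ℚ p jq) rfl _ hP2

/-- **The MOD node, subgroup form, unconditional.** -/
theorem moduliPlaceSub : ModuliPlaceSubStatement :=
  moduliPlaceSub_of_pieces Fermat.Agent.S15.H602.placeOfModularPairStatement placeUnique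
    Fermat.Agent.S15.H215.veluModularPair

/-- The subgroup form implies the point form. -/
theorem moduliPlace_of_sub (h : ModuliPlaceSubStatement) : ModuliPlaceStatement := by
  intro p _ hp hp5 W hΔ Q hQfix hQord h2Δ h2c₄
  refine h p hp hp5 W hΔ Q (fun σ => ?_) hQord h2Δ h2c₄
  rw [hQfix σ]
  exact AddSubgroup.mem_zmultiples Q

end Fermat.Agent.S12.H291
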