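import Mathlib
import Fermat.Prelude.Def_FLTPrelim_FreyPackage
import Fermat.Prelude.Def_FLTPrelim_GaloisRep
import Fermat.Prelude.Def_FLTPrelim_Ramification
import Fermat.Prelude.Def_FLTPrelim_CofixedLine
import Fermat.Agent.S12.H291.Jacobi
import Fermat.Agent.S12.H291.Endgame

/-!
# S12 — the ONE-STEP route: TOP assembly (helper291)

`s12_of_piRat : PiRatStatement → frozen S12`.

For a cofixed line `N` of the Frey curve `E : y² + xy = x³ + ((Y - 1 - X)/4) x² - (XY/16) x`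
(`X = a^p`, `Y = b^p`; `2`-torsion `ε₁ = 0`, `ε₂ = X/4`, `ε₃ = -Y/4`) and a generator `T₀` of `N`
put `Π_j := ∏_{k ∈ Ico 1 p} (x(k • T₀) - ε_j)`.

* Jacobi's identity (`Jacobi.lean`, proved):  `(X+Y)^p Π₁² = X^p Π₃² + Y^p Π₂²`.
* `PiRatStatement` (NODE): the `Π_j` are rational, `Π₃² = Π₁²` and `Π₁² = 16^(p-1) Π₂²`
  (i.e. `N` is the toric line at every prime; this is where frozen S15 enters).
* Endgame (`Endgame.lean`, proved): `16^(p-1) ((X+Y)^p - X^p) = Y^p` is impossible `2`-adically.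
-/

set_option autoImplicit false
set_option linter.unusedSectionVars false

noncomputable section

open WeierstrassCurve WeierstrassCurve.Affine WeierstrassCurve.Affine.Point

namespace Fermat.Agent.S12.H291

/-- `ℚ̄`. -/
abbrev Qb : Type := AlgebraicClosure ℚ

/-- The `ℚ̄`-points of the Frey curve (Prelude shape). -/
abbrev FreyPt (P : FreyPackage) : Type := (P.freyCurve⁄Qb).Point

/-- `ε₂ = a^p / 4`. -/
def eps₂ (P : FreyPackage) : Qb := algebraMap ℚ Qb ((P.a : ℚ) ^ P.p / 4)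

/-- `ε₃ = - b^p / 4`. -/
def eps₃ (P : FreyPackage) : Qb := algebraMap ℚ Qb (-((P.b : ℚ) ^ P.p) / 4)

/-- The Frey curve over `ℚ̄` has full `2`-torsion `ε₃, 0, ε₂`. -/
lemma frey_fullTwo (P : FreyPackage) : FullTwo (P.freyCurve⁄Qb) (eps₃ P) 0 (eps₂ P) := by
  have ha : ((P.a : ℚ) ^ P.p) ≠ 0 := pow_ne_zero _ (by exact_mod_cast P.ha0)
  have hb : ((P.b : ℚ) ^ P.p) ≠ 0 := pow_ne_zero _ (by exact_mod_cast P.hb0)
  have hc : ((P.a : ℚ) ^ P.p) + ((P.b : ℚ) ^ P.p) ≠ 0 := by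
    have h := P.hFLT
    have h' : ((P.a : ℚ) ^ P.p) + ((P.b : ℚ) ^ P.p) = (P.c : ℚ) ^ P.p := by exact_mod_cast h
    rw [h']
    exact pow_ne_zero _ (by exact_mod_cast P.hc0)
  have inj := (algebraMap ℚ Qb).injective
  refine ⟨two_ne_zero, ?_, ?_, ?_, ?_, ?_, ?_⟩
  · have : (P.freyCurve⁄Qb).b₂ = algebraMap ℚ Qb P.freyCurve.b₂ := by
      simp [WeierstrassCurve.baseChange]
    rw [this, eps₂, eps₃]
    simp only [WeierstrassCurve.b₂, FreyPackage.freyCurve]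
    rw [show (-4 : Qb) = algebraMap ℚ Qb (-4) by simp, show (0 : Qb) = algebraMap ℚ Qb 0 by simp,
      ← map_add, ← map_add, ← map_mul]
    congr 1
    ring
  · have : (P.freyCurve⁄Qb).b₄ = algebraMap ℚ Qb P.freyCurve.b₄ := by
      simp [WeierstrassCurve.baseChange]
    rw [this, eps₂, eps₃]
    simp only [WeierstrassCurve.b₄, FreyPackage.freyCurve]
    rw [show (2 : Qb) = algebraMap ℚ Qb 2 by simp, show (0 : Qb) = algebraMap ℚ Qb 0 by simp,
      ← map_mul, ← map_mul, ← map_mul, ← map_add, ← map_add, ← map_mul]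
    congr 1
    ring
  · have : (P.freyCurve⁄Qb).b₆ = algebraMap ℚ Qb P.freyCurve.b₆ := by
      simp [WeierstrassCurve.baseChange]
    rw [this]
    simp [WeierstrassCurve.b₆, FreyPackage.freyCurve]
  · rw [eps₃, ← map_zero (algebraMap ℚ Qb)]
    intro h
    have := inj h
    field_simp at this
    exact hb (by linarith)
  · rw [eps₃, eps₂]
    intro h
    have := inj h
    field_simp at this
    exact hc (by linarith)
  · rw [eps₂, ← map_zero (algebraMap ℚ Qb)]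
    intro h
    have := inj h
    field_simp at this
    exact ha (by linarith)

/-- **NODE PiRat** (this is where frozen S15 enters, through "the cofixed line is the toric
line at every prime"): for a cofixed line of the Frey representation, `17 ≤ p`, there is a point
`T₀` of order `p` (a generator of the line) such that the three products
`Π_j = ∏_{k ∈ Ico 1 p} (x(k • T₀) - ε_j)` are rational numbers `r₁, r₂, r₃` (for
`ε₁ = 0`, `ε₂ = a^p/4`, `ε₃ = -b^p/4`) with `r₃² = r₁²` and `r₁² = 16^(p-1) r₂²`. -/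
def PiRatStatement : Prop :=
  ∀ (P : FreyPackage), 17 ≤ P.p →
    ∀ N : Submodule (ZMod P.p) (Submodule.torsionBy ℤ (FreyPt P) P.p),
      IsGaloisStable (K := Qb) ℚ N → N ≠ ⊥ → N ≠ ⊤ →
      (∀ σ : Qb ≃ₐ[ℚ] Qb, ∀ x : Submodule.torsionBy ℤ (FreyPt P) P.p, σ • x - x ∈ N) →
      ∃ T₀ : Submodule.torsionBy ℤ (FreyPt P) P.p, T₀ ∈ N ∧ T₀ ≠ 0 ∧
        ∃ r₁ r₂ r₃ : ℚ, r₁ ≠ 0 ∧
          piProd (T₀ : FreyPt P) P.p 0 = algebraMap ℚ Qb r₁ ∧
          piProd (T₀ : FreyPt P) P.p (eps₂ P) = algebraMap ℚ Qb r₂ ∧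
          piProd (T₀ : FreyPt P) P.p (eps₃ P) = algebraMap ℚ Qb r₃ ∧
          r₃ ^ 2 = r₁ ^ 2 ∧ r₁ ^ 2 = 16 ^ (P.p - 1) * r₂ ^ 2

lemma frey_a_pow_odd (P : FreyPackage) : Odd (P.a ^ P.p) := by
  apply Odd.pow
  have h := P.ha4
  have h3 : ((P.a : ℤ) : ZMod 4) = ((3 : ℤ) : ZMod 4) := by rw [h]; rfl
  rw [ZMod.intCast_eq_intCast_iff_dvd_sub] at h3
  obtain ⟨k, hk⟩ := h3
  exact ⟨-2 * k + 1, by push_cast at hk; linarith⟩

lemma frey_b_pow_dvd (P : FreyPackage) : (32 : ℤ) ∣ P.b ^ P.p := by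
  have h2 : (2 : ℤ) ∣ P.b := (ZMod.intCast_zmod_eq_zero_iff_dvd P.b 2).1 P.hb2
  have h5 : (2 : ℤ) ^ 5 ∣ P.b ^ 5 := pow_dvd_pow_of_dvd h2 5
  have h6 : P.b ^ 5 ∣ P.b ^ P.p := pow_dvd_pow _ P.hp5
  exact (by norm_num : (32 : ℤ) = 2 ^ 5) ▸ h5.trans h6

/-- **Row S12, ONE-STEP TOP.**  The frozen statement S12 from the node `PiRatStatement`. -/
theorem s12_of_piRat (hPi : PiRatStatement) (P : FreyPackage) (hp : 17 ≤ P.p) :
    ¬ HasGaloisStableCofixedLine (K := AlgebraicClosure ℚ) ℚ P.freyCurve P.p := by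
  rintro ⟨N, hstab, hbot, htop, hcof⟩
  obtain ⟨T₀, -, hT₀, r₁, r₂, r₃, hr₁, h1, h2, h3, h31, h12⟩ :=
    hPi P hp N hstab hbot htop hcof
  -- `T₀` has exact order `p`
  have hord : addOrderOf (T₀ : FreyPt P) = P.p := by
    have hp0 : P.p • (T₀ : FreyPt P) = 0 := by
      have := T₀.2
      rw [Submodule.mem_torsionBy_iff] at this
      rw [← natCast_zsmul]
      exact this
    have hne : (T₀ : FreyPt P) ≠ 0 := fun h => hT₀ (Subtype.ext h)
    have hdvd := addOrderOf_dvd_of_nsmul_eq_zero hp0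
    rcases (Nat.dvd_prime P.pp).mp hdvd with h | h
    · exact absurd (AddMonoid.addOrderOf_eq_one_iff.mp h) hne
    · exact h
  have hJ := jacobi_identity (frey_fullTwo P) P.hp_odd hord
  rw [h1, h2, h3, eps₂, eps₃] at hJ
  rw [show (0 : Qb) = algebraMap ℚ Qb 0 by simp] at hJ
  simp only [← map_sub, ← map_pow, ← map_mul] at hJ
  have hQ := (algebraMap ℚ Qb).injective hJ
  -- the identity over `ℚ`
  have hr₂ : r₂ ≠ 0 := by
    rintro rfl
    apply hr₁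
    have : r₁ ^ 2 = 0 := by rw [h12]; ring
    exact pow_eq_zero_iff (two_ne_zero) |>.mp this
  have h4p : ((4 : ℚ) ^ P.p) ≠ 0 := pow_ne_zero _ (by norm_num)
  have key : (16 : ℚ) ^ (P.p - 1) * (((P.a : ℚ) ^ P.p + (P.b : ℚ) ^ P.p) ^ P.p
      - ((P.a : ℚ) ^ P.p) ^ P.p) = ((P.b : ℚ) ^ P.p) ^ P.p := by
    have hr₂2 : r₂ ^ 2 ≠ 0 := pow_ne_zero _ hr₂
    apply mul_right_cancel₀ hr₂2
    have e1 : ((P.a : ℚ) ^ P.p / 4 - -((P.b : ℚ) ^ P.p) / 4) ^ P.p
        = ((P.a : ℚ) ^ P.p + (P.b : ℚ) ^ P.p) ^ P.p / 4 ^ P.p := by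
      rw [← div_pow]; congr 1; ring
    have e2 : ((P.a : ℚ) ^ P.p / 4 - 0) ^ P.p = ((P.a : ℚ) ^ P.p) ^ P.p / 4 ^ P.p := by
      rw [sub_zero, div_pow]
    have e3 : ((0 : ℚ) - -((P.b : ℚ) ^ P.p) / 4) ^ P.p = ((P.b : ℚ) ^ P.p) ^ P.p / 4 ^ P.p := by
      rw [← div_pow]; congr 1; ring
    rw [e1, e2, e3, h31, h12] at hQ
    field_simp at hQ
    linear_combination hQ
  have keyZ : (16 : ℤ) ^ (P.p - 1) * ((P.a ^ P.p + P.b ^ P.p) ^ P.p - (P.a ^ P.p) ^ P.p)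
      = (P.b ^ P.p) ^ P.p := by
    exact_mod_cast key
  exact endgame P.hp_odd (by have := P.hp5; omega) (frey_a_pow_odd P) (frey_b_pow_dvd P)
    (pow_ne_zero _ P.hb0) keyZ

end Fermat.Agent.S12.H291
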