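import Fermat.Agent.S12.H291.OneStep
import Fermat.Agent.S13.H64.T5
import Fermat.Agent.S54.FrobExists

/-!
# S12 one-step route: `PiRatStatement` from the LOCAL node `PiValStatement` (helper291)

* `PiValStatement` (NODE, purely local): for a cofixed line `N` of the Frey curve with generator
  `T₀`, every prime `ℓ` and every valuation subring `A` of `ℚ̄` over `ℓ`:
  `v_A(Π₃) = v_A(Π₁)` and `v_A(Π₁) = v_A(4)^(p-1) · v_A(Π₂)`.
* `piRat_of_piVal : PiValStatement → PiRatStatement`: the `Π_j` are Galois-fixed (the line is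
  Galois-stable), hence rational, and a rational number which is a unit at every valuation
  subring of `ℚ̄` is `±1`.
* `s12_of_piVal : PiValStatement → frozen S12`.
-/

set_option autoImplicit false
set_option linter.unusedSectionVars false

noncomputable section

open WeierstrassCurve WeierstrassCurve.Affine WeierstrassCurve.Affine.Point

namespace Fermat.Agent.S12.H291

/-- **NODE PiVal** (local valuations of the three products). -/
def PiValStatement : Prop :=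
  ∀ (P : FreyPackage), 17 ≤ P.p →
    ∀ N : Submodule (ZMod P.p) (Submodule.torsionBy ℤ (FreyPt P) P.p),
      IsGaloisStable (K := Qb) ℚ N → N ≠ ⊥ → N ≠ ⊤ →
      (∀ σ : Qb ≃ₐ[ℚ] Qb, ∀ x : Submodule.torsionBy ℤ (FreyPt P) P.p, σ • x - x ∈ N) →
      ∀ T₀ : Submodule.torsionBy ℤ (FreyPt P) P.p, T₀ ∈ N → T₀ ≠ 0 →
      ∀ (ℓ : ℕ), ℓ.Prime → ∀ A : ValuationSubring Qb, A.LiesOverPrime ℓ →
        A.valuation (piProd (T₀ : FreyPt P) P.p (eps₃ P))
            = A.valuation (piProd (T₀ : FreyPt P) P.p 0) ∧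
          A.valuation (piProd (T₀ : FreyPt P) P.p 0)
            = A.valuation (4 : Qb) ^ (P.p - 1) * A.valuation (piProd (T₀ : FreyPt P) P.p (eps₂ P))

/-! ### Galois action on `x`-coordinates -/

lemma xc_smul {P : FreyPackage} (σ : Qb ≃ₐ[ℚ] Qb) (T : FreyPt P) : xc (σ • T) = σ (xc T) := by
  cases T with
  | zero => exact (map_zero σ).symm
  | some x y h => rfl

lemma zmodHom_intCast {K : Type*} [Field K] [DecidableEq K] {W : Affine K} {n : ℕ}
    (T₀ : W.Point) (h : n • T₀ = 0) (k : ℤ) :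
    zmodHom T₀ h (k : ZMod n) = k • T₀ := by
  have := ZMod.lift_coe n (⟨zmultiplesHom W.Point T₀, by
    rw [zmultiplesHom_apply, natCast_zsmul]
    exact h⟩ : {f : ℤ →+ W.Point // f n = 0}) k
  simp only [zmultiplesHom_apply] at this
  exact this

/-- If `σ` acts on the cyclic group `T (ZMod p)` through multiplication by `c ≠ 0` and fixes `r`,
then it fixes `Π_r`. -/
lemma piP_fixed {P : FreyPackage} {p : ℕ} [Fact p.Prime] (T : ZMod p →+ FreyPt P)
    (σ : Qb ≃ₐ[ℚ] Qb) (c : ZMod p) (hc : c ≠ 0) (hσ : ∀ a, σ • T a = T (a * c)) (r : Qb)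
    (hr : σ r = r) : σ (piP T r) = piP T r := by
  rw [piP, map_prod]
  refine Finset.prod_nbij' (fun a => a * c) (fun b => b * c⁻¹) ?_ ?_ ?_ ?_ ?_
  · intro a ha
    rw [mem_nz] at ha ⊢
    exact mul_ne_zero ha hc
  · intro b hb
    rw [mem_nz] at hb ⊢
    exact mul_ne_zero hb (inv_ne_zero hc)
  · intro a _
    rw [mul_assoc, mul_inv_cancel₀ hc, mul_one]
  · intro b _
    rw [mul_assoc, inv_mul_cancel₀ hc, mul_one]
  · intro a _
    rw [map_sub, hr, ← xc_smul, hσ]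

lemma nsmul_eq_zero_of_mem_torsion {P : FreyPackage}
    (T₀ : Submodule.torsionBy ℤ (FreyPt P) P.p) : P.p • (T₀ : FreyPt P) = 0 := by
  have := T₀.2
  rw [Submodule.mem_torsionBy_iff] at this
  rw [← natCast_zsmul]
  exact this

theorem isGalois_Qb_h291 : IsGalois ℚ Qb := by
  have : Algebra.IsAlgebraic ℚ Qb := AlgebraicClosure.isAlgebraic ℚ
  have : IsAlgClosure ℚ Qb := ⟨inferInstance, inferInstance⟩
  have : Normal ℚ Qb := IsAlgClosure.normal ℚ Qb
  exact isGalois_iff.mpr ⟨inferInstance, inferInstance⟩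

/-- The order of a nonzero element of `E[p]`. -/
lemma addOrderOf_eq_of_mem_torsion {P : FreyPackage}
    (T₀ : Submodule.torsionBy ℤ (FreyPt P) P.p) (hT₀ : T₀ ≠ 0) :
    addOrderOf (T₀ : FreyPt P) = P.p := by
  have hp0 : P.p • (T₀ : FreyPt P) = 0 := nsmul_eq_zero_of_mem_torsion T₀
  have hne : (T₀ : FreyPt P) ≠ 0 := fun h => hT₀ (Subtype.ext h)
  have hdvd := addOrderOf_dvd_of_nsmul_eq_zero hp0
  rcases (Nat.dvd_prime P.pp).mp hdvd with h | h
  · exact absurd (AddMonoid.addOrderOf_eq_one_iff.mp h) hne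
  · exact h

/-- **RAT**: the products `Π_r` (`r` rational) of a Galois-stable line are rational. -/
theorem piProd_rational (P : FreyPackage)
    (N : Submodule (ZMod P.p) (Submodule.torsionBy ℤ (FreyPt P) P.p))
    (hstab : IsGaloisStable (K := Qb) ℚ N) (htop : N ≠ ⊤)
    (T₀ : Submodule.torsionBy ℤ (FreyPt P) P.p) (hT₀N : T₀ ∈ N) (hT₀ : T₀ ≠ 0) (r : ℚ) :
    ∃ q : ℚ, algebraMap ℚ Qb q = piProd (T₀ : FreyPt P) P.p (algebraMap ℚ Qb r) := by
  have : Fact P.p.Prime := ⟨P.pp⟩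
  have : IsGalois ℚ Qb := isGalois_Qb_h291
  have hp0 : P.p • (T₀ : FreyPt P) = 0 := nsmul_eq_zero_of_mem_torsion T₀
  rw [← piP_zmodHom (T₀ : FreyPt P) hp0]
  apply Fermat.Agent.S13.H64.exists_rat_of_forall_fixed
  intro σ
  obtain ⟨k, hk⟩ := Fermat.Agent.S13.H64.frey_line P N htop T₀ hT₀N hT₀ (σ • T₀)
    (hstab σ T₀ hT₀N)
  have hk' : σ • (T₀ : FreyPt P) = k • (T₀ : FreyPt P) := by
    have := congrArg (Subtype.val) hk
    exact this
  have hc : ((k : ℤ) : ZMod P.p) ≠ 0 := by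
    intro h0
    have h1 : zmodHom (T₀ : FreyPt P) hp0 ((k : ℤ) : ZMod P.p) = 0 := by
      rw [h0, _root_.map_zero]
    rw [zmodHom_intCast, ← hk'] at h1
    have h2 : (T₀ : FreyPt P) = 0 := by
      have := congrArg (fun Q => σ⁻¹ • Q) h1
      simpa using this
    exact hT₀ (Subtype.ext h2)
  refine piP_fixed _ σ _ hc ?_ _ (by simp)
  intro a
  rw [zmodHom_apply, ← natCast_zsmul, algEquiv_smul_zsmul, hk', smul_smul]
  have : a * ((k : ℤ) : ZMod P.p) = (((a.val : ℤ) * k : ℤ) : ZMod P.p) := by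
    push_cast
    rw [ZMod.natCast_zmod_val]
  rw [this, zmodHom_intCast]

/-! ### A rational number which is a unit everywhere is `±1` -/

lemma val_rat_eq {A : ValuationSubring Qb} (q : ℚ) :
    A.valuation (algebraMap ℚ Qb q) =
      A.valuation ((q.num : ℤ) : Qb) / A.valuation ((q.den : ℤ) : Qb) := by
  rw [← map_div₀]
  congr 1
  conv_lhs => rw [← Rat.num_div_den q]
  push_cast
  rfl

lemma val_lt_one_of_dvd {ℓ : ℕ} {A : ValuationSubring Qb} (hA : A.LiesOverPrime ℓ) {m : ℤ}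
    (hm : (ℓ : ℤ) ∣ m) : A.valuation ((m : ℤ) : Qb) < 1 := by
  obtain ⟨t, rfl⟩ := hm
  push_cast
  rw [map_mul]
  have h1 : A.valuation ((ℓ : ℕ) : Qb) < 1 := (ValuationSubring.mem_nonunits_iff A).mp hA
  have h2 := Fermat.Agent.S13.H64.valuation_intCast_le_one A t
  calc A.valuation ((ℓ : ℕ) : Qb) * A.valuation ((t : ℤ) : Qb)
      ≤ A.valuation ((ℓ : ℕ) : Qb) * 1 := by gcongr
    _ < 1 := by rwa [mul_one]

/-- A rational number of valuation `1` at every valuation subring of `ℚ̄` over a prime has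
square `1`. -/
theorem sq_eq_one_of_val_eq_one (t : ℚ)
    (h : ∀ (ℓ : ℕ), ℓ.Prime → ∀ A : ValuationSubring Qb, A.LiesOverPrime ℓ →
      A.valuation (algebraMap ℚ Qb t) = 1) : t ^ 2 = 1 := by
  have hnum : t.num.natAbs = 1 := by
    by_contra hne
    obtain ⟨ℓ, hℓ, hdvd⟩ := Nat.exists_prime_and_dvd hne
    obtain ⟨A, hA⟩ := Fermat.Agent.S54.exists_valuationSubring_liesOver ℓ hℓ
    have h1 := h ℓ hℓ A hA
    rw [val_rat_eq] at h1
    have hn : A.valuation ((t.num : ℤ) : Qb) < 1 :=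
      val_lt_one_of_dvd hA (Int.natCast_dvd.mpr hdvd)
    have hd : A.valuation ((t.den : ℤ) : Qb) = 1 := by
      apply Fermat.Agent.S13.H64.valuation_intCast_eq_one A ℓ hℓ hA
      intro hd
      have h2 : ℓ ∣ t.den := Int.natCast_dvd_natCast.mp hd
      have := Nat.dvd_gcd hdvd h2
      rw [t.reduced] at this
      exact hℓ.one_lt.ne' (Nat.dvd_one.mp this)
    rw [hd, div_one] at h1
    exact hn.ne h1
  have hden : t.den = 1 := by
    by_contra hne
    obtain ⟨ℓ, hℓ, hdvd⟩ := Nat.exists_prime_and_dvd hne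
    obtain ⟨A, hA⟩ := Fermat.Agent.S54.exists_valuationSubring_liesOver ℓ hℓ
    have h1 := h ℓ hℓ A hA
    rw [val_rat_eq] at h1
    have hd : A.valuation ((t.den : ℤ) : Qb) < 1 :=
      val_lt_one_of_dvd hA (Int.natCast_dvd_natCast.mpr hdvd)
    have hn : A.valuation ((t.num : ℤ) : Qb) = 1 := by
      apply Fermat.Agent.S13.H64.valuation_intCast_eq_one A ℓ hℓ hA
      intro hn
      have h2 : ℓ ∣ t.num.natAbs := Int.natCast_dvd.mp hn
      have := Nat.dvd_gcd h2 hdvd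
      rw [t.reduced] at this
      exact hℓ.one_lt.ne' (Nat.dvd_one.mp this)
    rw [hn] at h1
    have hd0 : A.valuation ((t.den : ℤ) : Qb) ≠ 0 := by
      rw [Valuation.ne_zero_iff]
      have := t.den_pos
      exact_mod_cast this.ne'
    rw [div_eq_iff hd0, one_mul] at h1
    exact hd.ne h1.symm
  have ht : t = t.num := by
    conv_lhs => rw [← Rat.num_div_den t, hden]
    simp
  rw [ht]
  rcases Int.natAbs_eq t.num with h1 | h1
  · rw [h1, hnum]; norm_num
  · rw [h1, hnum]; norm_num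

/-- Two nonzero rationals with the same valuation at every valuation subring of `ℚ̄` over a
prime have the same square. -/
theorem sq_eq_sq_of_val_eq {q₁ q₂ : ℚ} (h₂ : q₂ ≠ 0)
    (h : ∀ (ℓ : ℕ), ℓ.Prime → ∀ A : ValuationSubring Qb, A.LiesOverPrime ℓ →
      A.valuation (algebraMap ℚ Qb q₁) = A.valuation (algebraMap ℚ Qb q₂)) : q₁ ^ 2 = q₂ ^ 2 := by
  have key := sq_eq_one_of_val_eq_one (q₁ / q₂) (fun ℓ hℓ A hA => by
    rw [map_div₀, map_div₀, h ℓ hℓ A hA]
    apply div_self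
    rw [Valuation.ne_zero_iff]
    exact (map_ne_zero _).mpr h₂)
  rw [div_pow, div_eq_one_iff_eq (pow_ne_zero _ h₂)] at key
  exact key

/-! ### The glue -/

theorem piRat_of_piVal (hV : PiValStatement) : PiRatStatement := by
  intro P hp N hstab hbot htop hcof
  obtain ⟨T₀, hT₀N, hT₀⟩ := (Submodule.ne_bot_iff N).mp hbot
  refine ⟨T₀, hT₀N, hT₀, ?_⟩
  have : NeZero P.p := ⟨P.hp0⟩
  have hord := addOrderOf_eq_of_mem_torsion T₀ hT₀
  have hp0 : P.p • (T₀ : FreyPt P) = 0 := nsmul_eq_zero_of_mem_torsion T₀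
  have hinj : Function.Injective (zmodHom (T₀ : FreyPt P) hp0) := zmodHom_injective hord
  obtain ⟨r₁, hr₁⟩ := piProd_rational P N hstab htop T₀ hT₀N hT₀ 0
  obtain ⟨r₂, hr₂⟩ := piProd_rational P N hstab htop T₀ hT₀N hT₀ ((P.a : ℚ) ^ P.p / 4)
  obtain ⟨r₃, hr₃⟩ := piProd_rational P N hstab htop T₀ hT₀N hT₀ (-((P.b : ℚ) ^ P.p) / 4)
  rw [_root_.map_zero] at hr₁
  have hne₁ : piProd (T₀ : FreyPt P) P.p 0 ≠ 0 := by
    rw [← piP_zmodHom (T₀ : FreyPt P) hp0]
    exact piP_ne_zero hinj P.hp_odd (frey_fullTwo P).swap12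
  have hne₂ : piProd (T₀ : FreyPt P) P.p (eps₂ P) ≠ 0 := by
    rw [← piP_zmodHom (T₀ : FreyPt P) hp0]
    exact piP_ne_zero hinj P.hp_odd (frey_fullTwo P).rot'
  have hq₁ : r₁ ≠ 0 := by
    rintro rfl
    exact hne₁ (by rw [← hr₁, _root_.map_zero])
  have hq₂ : r₂ ≠ 0 := by
    rintro rfl
    apply hne₂
    rw [eps₂, ← hr₂, _root_.map_zero]
  refine ⟨r₁, r₂, r₃, hq₁, hr₁.symm, hr₂.symm, hr₃.symm, ?_, ?_⟩
  · apply sq_eq_sq_of_val_eq hq₁
    intro ℓ hℓ A hA
    have := (hV P hp N hstab hbot htop hcof T₀ hT₀N hT₀ ℓ hℓ A hA).1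
    rw [hr₃, hr₁]
    exact this
  · have h16 : (16 : ℚ) ^ (P.p - 1) * r₂ ^ 2 = (4 ^ (P.p - 1) * r₂) ^ 2 := by
      rw [mul_pow, ← pow_mul, mul_comm (P.p - 1) 2, pow_mul]
      norm_num
    rw [h16]
    apply sq_eq_sq_of_val_eq (mul_ne_zero (pow_ne_zero _ (by norm_num)) hq₂)
    intro ℓ hℓ A hA
    have := (hV P hp N hstab hbot htop hcof T₀ hT₀N hT₀ ℓ hℓ A hA).2
    rw [map_mul, map_mul, map_pow, map_pow, hr₁, hr₂]
    have h4 : (algebraMap ℚ Qb) 4 = (4 : Qb) := by simp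
    rw [h4]
    exact this

/-- **Row S12, one-step route**: frozen S12 from the local node `PiValStatement`. -/
theorem s12_of_piVal (hV : PiValStatement) (P : FreyPackage) (hp : 17 ≤ P.p) :
    ¬ HasGaloisStableCofixedLine (K := AlgebraicClosure ℚ) ℚ P.freyCurve P.p :=
  s12_of_piRat (piRat_of_piVal hV) P hp

end Fermat.Agent.S12.H291
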