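import Fermat.Agent.S12.H291.Final
import Fermat.Agent.S15.H975.DescTop3
import Fermat.Agent.S15.H542.GeoDiscSub
import Fermat.Agent.S15.H962.GeoProp

/-!
# Row S12, one-step route: frozen S12 from the OPEN nodes of row S15 (helper291)

`s12_of_route` consumes EXACTLY the nodes that the final assembly of row S15
(`S15.H975.S15_of_geo_sel`) consumes, with GEO in its PARTS form:

* `SpNode p` : GEO-PARTS (b) = IDENT + RED (i), i.e. for every prime `q ≠ p`, every place `A | q`
  and the cusp `0` a specialisation map `sp₀` on `J₀(p)`, injective on prime-to-`q` torsion, which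
  kills `discK p A P₀` (`H962.KilledBy`);
* Mordell–Weil for `J₀(p)` (frozen S17), `Alg0Statement`, `DivStatement`, `SelStatement`
  (the DESC nodes of `S15/H975/DescSpec.lean`, `DescSpec2.lean`).

CUSP (`H362.cuspStatement`), PROPAGATION (`H962.propagation`), DISC in subgroup form
(`H542.geoPartsSub_of_pieces`), MOD in subgroup form (`moduliPlaceSub`) and all the
S12-specific local analysis (`Glue.lean`) are on main and plugged in.
-/

set_option autoImplicit false

noncomputable section

open AlgebraicCurve ModularCurve WeierstrassCurve WeierstrassCurve.Affine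
  WeierstrassCurve.Affine.Point

namespace Fermat.Agent.S12.H291

/-- **GEO-PARTS (b)** (IDENT + RED (i)) at level `p`: the only open GEO node. -/
def SpNode (p : ℕ) [NeZero p] : Prop :=
  ∀ q : ℕ, q.Prime → q ≠ p →
    ∀ A : ValuationSubring (AlgebraicClosure ℚ), A.LiesOverPrime q →
    ∀ P₀ : Place (AlgebraicClosure ℚ) (modularFunctionFieldBar p),
      Fermat.Agent.S15.Core.IsCuspZero p P₀ →
    ∃ (X : Type) (_ : AddCommGroup X) (sp₀ : JZero p →+ X),
      (∀ (m : ℕ) (z : JZero p), ¬ q ∣ m → m • z = 0 → sp₀ z = 0 → z = 0) ∧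
      Fermat.Agent.S15.H962.KilledBy p A P₀ sp₀

theorem notMem_of_seventeen_le {p : ℕ} (h17 : 17 ≤ p) :
    p ∉ ({2, 3, 5, 7, 13} : Finset ℕ) := by
  intro h
  simp only [Finset.mem_insert, Finset.mem_singleton] at h
  omega

/-- **Row S12 — FINAL (route form)**: frozen S12 from the open nodes of row S15. -/
theorem s12_of_route
    (hSp : ∀ (p : ℕ) (hp : p.Prime), 17 ≤ p →
      haveI : NeZero p := ⟨hp.ne_zero⟩; SpNode p)
    (hMW : ∀ (p : ℕ) [NeZero p], p.Prime → 5 ≤ p →
      AddGroup.FG ↥(FixedPoints.addSubgroup (AlgebraicClosure ℚ ≃ₐ[ℚ] AlgebraicClosure ℚ)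
        (JZero p)))
    (hA : Fermat.Agent.S15.H975.Alg0Statement) (hDiv : Fermat.Agent.S15.H975.DivStatement)
    (hSel : Fermat.Agent.S15.H975.SelStatement)
    (P : FreyPackage) (hp : 17 ≤ P.p) :
    ¬ HasGaloisStableCofixedLine (K := AlgebraicClosure ℚ) ℚ P.freyCurve P.p :=
  s12_of_parts
    (fun p hp _ =>
      haveI : NeZero p := ⟨hp.ne_zero⟩
      Fermat.Agent.S15.H362.cuspStatement p hp)
    (fun p hp h17 =>
      haveI : NeZero p := ⟨hp.ne_zero⟩
      Fermat.Agent.S15.H542.geoPartsSub_of_pieces p hp (by omega)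
        (Fermat.Agent.S15.H962.propagation p) (hSp p hp h17))
    (fun p hp h17 =>
      haveI : NeZero p := ⟨hp.ne_zero⟩
      Fermat.Agent.S15.H975.descentStatement_of_sel hA hDiv hSel hp
        (notMem_of_seventeen_le h17) (hMW p hp (by omega)))
    P hp

end Fermat.Agent.S12.H291
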