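import Fermat.Agent.S12.H291.Local
import Fermat.Agent.S15.H242.Loc
import Fermat.Agent.S13.H365.FreyTwo
import Fermat.Agent.S13.H164.Frey
import Fermat.Agent.S37.H99.FrobAt
import Fermat.Agent.S12.H411.Count
import Fermat.Agent.Ribet.H164.FreyModelAtP

/-!
# S12 one-step route: LOCAL tools for the toric line (helper291)

* `exists_pow_eq_of_torsion` : the `p`-torsion of the component group `Γ₀ˣ ⧸ ⟨u⟩` is cyclic;
* `exists_zmod_point_of_frob_fixed`, `le_of_frob_fixed`, `dvd_of_frob_fixed` : a point of prime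
  order `p ≠ ℓ` of `E⁰`, fixed by a Frobenius element at `A ∣ ℓ`, reduces to an `𝔽_ℓ`-rational
  point of order `p`; hence `p ≤ 2ℓ + 1`, and `p ∣ ℓ ± 1` at a multiplicative prime;
* `inE0_of_nodeInE0` : the identity component of a node model (`S13.H365.NodeModel`) lies in the
  identity component in the sense of reduction (`S15.H242.InE0`).
-/

set_option autoImplicit false
set_option linter.unusedSectionVars false
set_option linter.style.haveILetI false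

noncomputable section

open WeierstrassCurve WeierstrassCurve.Affine WeierstrassCurve.Affine.Point

namespace Fermat.Agent.S12.H291

open Fermat.Agent.Lib.Red.H290 Fermat.Agent.S15.H242
open Fermat.Agent.S13.H365 (NodeModel)
open Fermat.Agent.S05.SameRed (IntegralCoeffs)

section cyclic

variable {Γ₀ : Type*} [LinearOrderedCommGroupWithZero Γ₀]

/-- The unit group of a linearly ordered group with zero is torsion-free. -/
lemma units_eq_one_of_pow_eq_one {g : Γ₀ˣ} {n : ℕ} (hn : n ≠ 0) (h : g ^ n = 1) : g = 1 := by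
  have h1 : ((g : Γ₀)) ^ n = (1 : Γ₀) ^ n := by
    rw [one_pow, ← Units.val_pow_eq_pow_val, h, Units.val_one]
  exact Units.ext (Fermat.Agent.S05.Assemble.pow_eq_pow_imp_eq hn h1)

/-- In `Γ₀ˣ ⧸ ⟨u⟩` the `p`-torsion is cyclic: if `c₁ ≠ 1`, `c₁^p = c₂^p = 1` then `c₂` is a
power of `c₁`. -/
lemma exists_pow_eq_of_torsion (u : Γ₀ˣ) {p : ℕ} (hp : p.Prime)
    (c₁ c₂ : Γ₀ˣ ⧸ Subgroup.zpowers u) (h₁ : c₁ ^ p = 1) (h₂ : c₂ ^ p = 1) (hne : c₁ ≠ 1) :
    ∃ k : ℕ, c₂ = c₁ ^ k := by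
  haveI : Fact p.Prime := ⟨hp⟩
  obtain ⟨g₁, rfl⟩ := QuotientGroup.mk_surjective c₁
  obtain ⟨g₂, rfl⟩ := QuotientGroup.mk_surjective c₂
  rw [← QuotientGroup.mk_pow, QuotientGroup.eq_one_iff, Subgroup.mem_zpowers_iff] at h₁ h₂
  obtain ⟨m₁, hm₁⟩ := h₁
  obtain ⟨m₂, hm₂⟩ := h₂
  have hnd : ¬ (p : ℤ) ∣ m₁ := by
    rintro ⟨t, rfl⟩
    apply hne
    rw [QuotientGroup.eq_one_iff, Subgroup.mem_zpowers_iff]
    refine ⟨t, ?_⟩
    have : (g₁ / u ^ t) ^ p = 1 := by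
      rw [div_pow, ← hm₁, ← zpow_natCast (u ^ t) p, ← zpow_mul, mul_comm, div_self']
    have := units_eq_one_of_pow_eq_one hp.ne_zero this
    exact (div_eq_one.mp this).symm
  have hm₁' : (m₁ : ZMod p) ≠ 0 := by
    rwa [Ne, ZMod.intCast_zmod_eq_zero_iff_dvd]
  set k : ℕ := ((m₂ : ZMod p) * (m₁ : ZMod p)⁻¹).val with hk
  have hkm : ((m₂ - k * m₁ : ℤ) : ZMod p) = 0 := by
    push_cast
    rw [hk, ZMod.natCast_val, ZMod.cast_id', id, mul_assoc, inv_mul_cancel₀ hm₁', mul_one, sub_self]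
  obtain ⟨t, ht⟩ := (ZMod.intCast_zmod_eq_zero_iff_dvd _ p).mp hkm
  refine ⟨k, ?_⟩
  rw [← QuotientGroup.mk_pow, QuotientGroup.eq, Subgroup.mem_zpowers_iff]
  refine ⟨-t, ?_⟩
  have : (g₂ / (g₁ ^ k * u ^ t)) ^ p = 1 := by
    rw [div_pow, mul_pow, ← hm₂, ← pow_mul, mul_comm k p, pow_mul, ← hm₁,
      ← zpow_natCast (u ^ t) p, ← zpow_mul, ← zpow_natCast (u ^ m₁) k, ← zpow_mul, ← zpow_add,
      div_eq_one]
    congr 1
    linarith
  have h := div_eq_one.mp (units_eq_one_of_pow_eq_one hp.ne_zero this)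
  rw [h, zpow_neg]
  group

end cyclic

section frob

/-- A Frobenius element at `A` is congruent to `x ↦ x ^ ℓ` on `A`. -/
theorem frob_sub_pow_mem {A : ValuationSubring Qb} {σ : Qb ≃ₐ[ℚ] Qb} {ℓ : ℕ}
    (h : A.IsFrobeniusAt σ ℓ) {x : Qb} (hx : x ∈ A) : σ x - x ^ ℓ ∈ A.nonunits := by
  obtain ⟨hσ, hF⟩ := h
  have h1 := hF (IsLocalRing.residue A ⟨x, hx⟩)
  rw [← IsLocalRing.ResidueField.residue_smul, ← map_pow, ← sub_eq_zero, ← map_sub,
    IsLocalRing.residue_eq_zero_iff, ← ValuationSubring.coe_mem_nonunits_iff] at h1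
  exact h1

/-- The residue of a Frobenius-fixed integral element lies in the prime field. -/
lemma rd_mem_range_of_frob_fixed {A : ValuationSubring Qb} {σ : Qb ≃ₐ[ℚ] Qb} {ℓ : ℕ}
    (hℓ : ℓ.Prime) (hσ : A.IsFrobeniusAt σ ℓ)
    [CharP (IsLocalRing.ResidueField A) ℓ] {x : Qb} (hx : x ∈ A) (hfix : σ x = x) :
    rd A (IsLocalRing.residue A) x ∈
      Set.range (ZMod.castHom (dvd_refl ℓ) (IsLocalRing.ResidueField A)) := by
  haveI : Fact ℓ.Prime := ⟨hℓ⟩
  have hφ : KerMax A (IsLocalRing.residue A) := kerMax_residue A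
  have h1 := frob_sub_pow_mem hσ hx
  rw [hfix, A.mem_nonunits_iff] at h1
  have h2 : rd A (IsLocalRing.residue A) x = rd A (IsLocalRing.residue A) (x ^ ℓ) :=
    (rd_eq_iff hφ hx (pow_mem hx ℓ)).mpr h1
  rw [rd_pow hx] at h2
  have h3 : rd A (IsLocalRing.residue A) x ∈ (⊥ : Subfield (IsLocalRing.ResidueField A)) :=
    (Subfield.mem_bot_iff_pow_eq_self (IsLocalRing.ResidueField A) ℓ).mpr h2.symm
  rw [← ZMod.fieldRange_castHom_eq_bot ℓ] at h3
  exact h3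

/-- **Frobenius-fixed points of `E⁰` reduce to `𝔽_ℓ`-points**: a point of prime order `p ≠ ℓ`
of `E⁰`, fixed by a Frobenius element at `A`, gives a point of order `p` of the reduction
over `𝔽_ℓ`. -/
theorem exists_zmod_point_of_frob_fixed
    {p : ℕ} (hp : p.Prime) (Wq : WeierstrassCurve ℚ) (W₀ : WeierstrassCurve ℤ)
    (A : ValuationSubring Qb) {ℓ : ℕ} [Fact ℓ.Prime] (hℓp : ℓ ≠ p) (hA : A.LiesOverPrime ℓ)
    (hred : IsRedOf A (IsLocalRing.residue A) (Wq⁄Qb) (W₀⁄(IsLocalRing.ResidueField A)))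
    (σ : Qb ≃ₐ[ℚ] Qb) (hσ : A.IsFrobeniusAt σ ℓ)
    (Q : (Wq⁄Qb).Point) (hfix : σ • Q = Q) (hQord : addOrderOf Q = p)
    (hE0 : InE0 A (IsLocalRing.residue A) (W₀⁄(IsLocalRing.ResidueField A)) Q) :
    ∃ R : (W₀⁄(ZMod ℓ)).Point, addOrderOf R = p := by
  classical
  have hℓ : ℓ.Prime := Fact.out
  have hφ : KerMax A (IsLocalRing.residue A) := kerMax_residue A
  have hv : A.valuation ((p : ℕ) : Qb) = 1 := val_natCast_eq_one A hA hℓ hp hℓp
  have hord := addOrderOf_red0 hred hφ hp hv hE0 hQord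
  rcases Q with _ | ⟨x, y, h⟩
  · rw [show (Point.zero : (Wq⁄Qb).Point) = 0 from rfl, addOrderOf_zero] at hQord
    exact absurd hQord hp.one_lt.ne
  have key : σ x = x ∧ σ y = y := by
    have := hfix
    rw [Point.algEquiv_smul_def, Point.map_some] at this
    simp only [Point.some.injEq] at this
    exact this
  have hx : x ∈ A := by
    by_contra hx
    rw [red0_some_of_not_mem h hx, addOrderOf_zero] at hord
    exact hp.one_lt.ne hord
  have hns : (W₀⁄(IsLocalRing.ResidueField A)).Nonsingular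
      (rd A (IsLocalRing.residue A) x) (rd A (IsLocalRing.residue A) y) := hE0 hx
  have hy : y ∈ A := y_mem_of_x_mem hred h.1 hx
  rw [red0_some_of_mem h hx hns] at hord
  haveI : CharP (IsLocalRing.ResidueField A) ℓ := (CharP.charP_iff_prime_eq_zero hℓ).mpr (by
    have h0 : rd A (IsLocalRing.residue A) ((ℓ : ℤ) : Qb) = 0 :=
      rd_eq_zero_of_lt hφ (by
        have := (A.mem_nonunits_iff).mp hA
        simpa using this)
    rw [rd_intCast] at h0
    exact_mod_cast h0)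
  let f : ZMod ℓ →ₐ[ℤ] IsLocalRing.ResidueField A :=
    (ZMod.castHom dvd_rfl (IsLocalRing.ResidueField A)).toIntAlgHom
  have hf : Function.Injective f := (f : ZMod ℓ →+* IsLocalRing.ResidueField A).injective
  obtain ⟨u, hu⟩ := rd_mem_range_of_frob_fixed hℓ hσ hx key.1
  obtain ⟨w, hw⟩ := rd_mem_range_of_frob_fixed hℓ hσ hy key.2
  have hu' : f u = rd A (IsLocalRing.residue A) x := hu
  have hw' : f w = rd A (IsLocalRing.residue A) y := hw
  generalize rd A (IsLocalRing.residue A) x = X at hns hord hu'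
  generalize rd A (IsLocalRing.residue A) y = Y at hns hord hw'
  subst hu' hw'
  have hns0 : (W₀⁄(ZMod ℓ)).Nonsingular u w :=
    (Affine.baseChange_nonsingular W₀ (f := f) hf u w).mp hns
  have hmap : Point.map (W' := W₀) f (Point.some u w hns0) = Point.some _ _ hns :=
    Point.map_some f hns0
  refine ⟨Point.some u w hns0, ?_⟩
  rw [← addOrderOf_injective (Point.map (W' := W₀) f) (Point.map_injective f), hmap]
  exact hord

/-- Crude bound: `p ≤ 2ℓ + 1`. -/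
theorem le_of_frob_fixed
    {p : ℕ} (hp : p.Prime) (Wq : WeierstrassCurve ℚ) (W₀ : WeierstrassCurve ℤ)
    (A : ValuationSubring Qb) {ℓ : ℕ} (hℓ : ℓ.Prime) (hℓp : ℓ ≠ p) (hA : A.LiesOverPrime ℓ)
    (hred : IsRedOf A (IsLocalRing.residue A) (Wq⁄Qb) (W₀⁄(IsLocalRing.ResidueField A)))
    (σ : Qb ≃ₐ[ℚ] Qb) (hσ : A.IsFrobeniusAt σ ℓ)
    (Q : (Wq⁄Qb).Point) (hfix : σ • Q = Q) (hQord : addOrderOf Q = p)
    (hE0 : InE0 A (IsLocalRing.residue A) (W₀⁄(IsLocalRing.ResidueField A)) Q) :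
    p ≤ 2 * ℓ + 1 := by
  classical
  haveI : Fact ℓ.Prime := ⟨hℓ⟩
  obtain ⟨R, hR⟩ := exists_zmod_point_of_frob_fixed hp Wq W₀ A hℓp hA hred σ hσ Q hfix hQord hE0
  haveI : Finite (W₀⁄(ZMod ℓ)).Point := Fermat.Agent.S12.H411.finite_point _
  have h1 : Nat.card (W₀⁄(ZMod ℓ)).Point ≤ 2 * Nat.card (ZMod ℓ) + 1 :=
    Fermat.Agent.S12.H411.natCard_point_le _
  rw [Nat.card_zmod] at h1
  have h2 : addOrderOf R ∣ Nat.card (W₀⁄(ZMod ℓ)).Point := addOrderOf_dvd_natCard R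
  rw [hR] at h2
  exact (Nat.le_of_dvd Nat.card_pos h2).trans h1

/-- Nodal count: at a multiplicative prime, `p ∣ ℓ - 1` or `p ∣ ℓ + 1`. -/
theorem dvd_of_frob_fixed
    {p : ℕ} (hp : p.Prime) (Wq : WeierstrassCurve ℚ) (W₀ : WeierstrassCurve ℤ)
    (A : ValuationSubring Qb) {ℓ : ℕ} (hℓ : ℓ.Prime) (hℓp : ℓ ≠ p) (hA : A.LiesOverPrime ℓ)
    (hℓΔ : (ℓ : ℤ) ∣ W₀.Δ) (hℓc₄ : ¬ (ℓ : ℤ) ∣ W₀.c₄)
    (hred : IsRedOf A (IsLocalRing.residue A) (Wq⁄Qb) (W₀⁄(IsLocalRing.ResidueField A)))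
    (σ : Qb ≃ₐ[ℚ] Qb) (hσ : A.IsFrobeniusAt σ ℓ)
    (Q : (Wq⁄Qb).Point) (hfix : σ • Q = Q) (hQord : addOrderOf Q = p)
    (hE0 : InE0 A (IsLocalRing.residue A) (W₀⁄(IsLocalRing.ResidueField A)) Q) :
    p ∣ ℓ - 1 ∨ p ∣ ℓ + 1 := by
  classical
  haveI : Fact ℓ.Prime := ⟨hℓ⟩
  obtain ⟨R, hR⟩ := exists_zmod_point_of_frob_fixed hp Wq W₀ A hℓp hA hred σ hσ Q hfix hQord hE0
  have hΔ0 : (W₀⁄(ZMod ℓ)).Δ = 0 := by
    show (W₀.map (algebraMap ℤ (ZMod ℓ))).Δ = 0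
    rw [WeierstrassCurve.map_Δ, algebraMap_int_eq, eq_intCast,
      ZMod.intCast_zmod_eq_zero_iff_dvd]
    exact hℓΔ
  have hc0 : (W₀⁄(ZMod ℓ)).c₄ ≠ 0 := by
    show (W₀.map (algebraMap ℤ (ZMod ℓ))).c₄ ≠ 0
    rw [WeierstrassCurve.map_c₄, algebraMap_int_eq, eq_intCast, Ne,
      ZMod.intCast_zmod_eq_zero_iff_dvd]
    exact hℓc₄
  have := addOrderOf_dvd_of_nodal hc0 hΔ0 R
  rwa [hR, Nat.card_zmod] at this

end frob

section bridge

variable {K : Type*} [Field K] [DecidableEq K] {κ : Type*} [Field κ] [DecidableEq κ]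
variable {A : ValuationSubring K} {φ : A →+* κ} {W : Affine K} {Wκ : Affine κ}

/-- `2y + a₁x + a₃` of an integral point is integral and reduces as expected. -/
lemma rd_etaExpr (h : IsRedOf A φ W Wκ) {x y : K} (hx : x ∈ A) (hy : y ∈ A) :
    2 * y + W.a₁ * x + W.a₃ ∈ A ∧
    rd A φ (2 * y + W.a₁ * x + W.a₃) = 2 * rd A φ y + Wκ.a₁ * rd A φ x + Wκ.a₃ := by
  obtain ⟨c₁, c₂, c₃, c₄, c₆, e₁, e₂, e₃, e₄, e₆, f₁, f₂, f₃, f₄, f₆⟩ := h.exists_lift
  lift x to A using hx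
  lift y to A using hy
  simp only [← e₁, ← e₃, ← f₁, ← f₃]
  have : (2 * (y : K) + c₁ * x + c₃) = ((2 * y + c₁ * x + c₃ : A) : K) := by
    push_cast; rw [coe_two]
  rw [this, rd_coe, rd_coe, rd_coe]
  exact ⟨Subtype.mem _, by simp only [map_add, map_mul, map_ofNat]⟩

/-- If one of the two partial derivatives at an integral point is a unit, the reduced point is
nonsingular. -/
lemma nonsingular_rd_of_val (h : IsRedOf A φ W Wκ) (hφ : KerMax A φ) {x y : K}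
    (hxy : W.Equation x y) (hx : x ∈ A) (hy : y ∈ A)
    (hns : A.valuation (W.a₁ * y - (3 * x ^ 2 + 2 * W.a₂ * x + W.a₄)) = 1 ∨
      A.valuation (2 * y + W.a₁ * x + W.a₃) = 1) :
    Wκ.Nonsingular (rd A φ x) (rd A φ y) := by
  rw [Affine.nonsingular_iff']
  refine ⟨rd_equation h hx hy hxy, ?_⟩
  rcases hns with h1 | h1
  · left
    obtain ⟨hm, hr⟩ := rd_slopeNum h hx hy
    have h2 : A.valuation (3 * x ^ 2 + 2 * W.a₂ * x + W.a₄ - W.a₁ * y) = 1 := by
      rw [← Valuation.map_neg, neg_sub]; exact h1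
    have h3 := (rd_ne_zero_iff hφ hm).mpr h2
    rw [hr] at h3
    intro h0
    apply h3
    linear_combination -h0
  · right
    obtain ⟨hm, hr⟩ := rd_etaExpr h hx hy
    have h3 := (rd_ne_zero_iff hφ hm).mpr h1
    rwa [hr] at h3

/-- A point of the identity component in the sense of a node model is in `E⁰` in the sense of
reduction. -/
lemma inE0_of_nodeInE0 (h : IsRedOf A φ W Wκ) (hφ : KerMax A φ) (M : NodeModel A.valuation W)
    (he : A.valuation M.e ≤ 1) {Q : W.Point} (hQ : M.InE0 Q) : InE0 A φ Wκ Q := by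
  rcases Q with _ | ⟨x, y, hxy⟩
  · exact inE0_zero
  · intro hx
    have hxv : A.valuation x ≤ 1 := (A.valuation_le_one_iff x).mpr hx
    have hy : y ∈ A := y_mem_of_x_mem h hxy.1 hx
    have hyv : A.valuation y ≤ 1 := (A.valuation_le_one_iff y).mpr hy
    have hξ : A.valuation (x - M.e) = 1 :=
      le_antisymm (Fermat.Agent.S05.SameRed.val_sub_le_one hxv he) hQ
    exact nonsingular_rd_of_val h hφ hxy.1 hx hy
      (M.nonsingular_red h.integralCoeffs hxy.1 hxv hyv hξ)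

end bridge

section node

variable {K : Type*} [Field K] [DecidableEq K] {Γ₀ : Type*} [LinearOrderedCommGroupWithZero Γ₀]
  {v : Valuation K Γ₀} {W : Affine K}

lemma nodeInE0_zsmul (M : NodeModel v W) {Q : W.Point} (hQ : M.InE0 Q) (k : ℤ) :
    M.InE0 (k • Q) := by
  rw [← M.comp_eq_one_iff] at hQ ⊢
  have h1 : M.compHom Q = 0 := by
    show Additive.ofMul (M.comp Q) = 0
    rw [hQ]; rfl
  have h2 : M.compHom (k • Q) = 0 := by rw [map_zsmul, h1, zsmul_zero]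
  exact h2

end node

end Fermat.Agent.S12.H291
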