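import Fermat.Agent.S12.H291.Toric

/-!
# S12 one-step route: LOCAL-TORIC for the Frey curve (helper291)

`toric_local` : let `N` be a cofixed line of the Frey curve, `ℓ ≠ p` a prime dividing `abc`
(a multiplicative prime) with `p ∤ ℓ - 1` and `p ∤ ℓ + 1`, and `A` a valuation ring of `ℚ̄`
over `ℓ`.  Then `N ⊆ E⁰` at `A` (`N` is the toric line).

Proof.  If some `T ∈ N` is not in `E⁰`, the cyclicity of the `p`-torsion of the component group
produces `Q = S - k • T ∈ E[p] ∩ E⁰`, `Q ∉ N`.  For a Frobenius element `σ` at `A` the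
difference `σ Q - Q` lies in `N ∩ E⁰ = 0`, so `Q` is a `σ`-fixed point of order `p` of `E⁰`;
it reduces to an `𝔽_ℓ`-point of order `p` of the nodal cubic, whence `p ∣ ℓ ± 1`.
No determinant / Weil pairing is used.
-/

set_option autoImplicit false
set_option linter.unusedSectionVars false
set_option linter.style.haveILetI false

noncomputable section

open WeierstrassCurve WeierstrassCurve.Affine WeierstrassCurve.Affine.Point

namespace Fermat.Agent.S12.H291

open Fermat.Agent.Lib.Red.H290 Fermat.Agent.S15.H242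
open Fermat.Agent.S13.H365 (NodeModel)
open Fermat.Agent.S05.SameRed (IntegralCoeffs)
open Fermat.Agent.S05.Assemble (fA fB fC fA_add_fB frey_a₁ frey_a₂ frey_a₃ frey_a₄ frey_a₆
  fA_ne_zero fB_ne_zero fC_ne_zero val_fA_le_one val_fB_le_one val_fC_le_one
  val_fA_eq_one val_fB_eq_one val_fC_eq_one val_fA_lt_one val_fB_lt_one val_fC_lt_one
  val_sixteen_eq_one val_four_eq_one val_two_eq_one not_dvd_of_gcd_eq_one sigma_fA)

/-- `P ∈ E⁰` at `A`, in the sense of reduction to the integral Frey model. -/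
def FreyInE0 (P : FreyPackage) (A : ValuationSubring Qb) (Q : FreyPt P) : Prop :=
  InE0 A (IsLocalRing.residue A) (P.freyCurveInt⁄(IsLocalRing.ResidueField A)) Q

variable (P : FreyPackage) {A : ValuationSubring Qb}

/-- The Frey curve over `ℚ̄` reduces to the integral Frey model. -/
lemma frey_isRedOf (A : ValuationSubring Qb) :
    IsRedOf A (IsLocalRing.residue A) (P.freyCurve⁄Qb)
      (P.freyCurveInt⁄(IsLocalRing.ResidueField A)) := by
  have h := isRedOf_int A P.freyCurveInt (IsLocalRing.residue A)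
  rwa [← Fermat.Agent.S13.H164.freyCurve_eq_map] at h

/-- The node model of the Frey curve at `(0, 0)`. -/
def freyNodeZero (ha : A.valuation (P.freyCurve⁄Qb).a₄ < 1)
    (hb : A.valuation (fB P - fA P) = 1) (s : Qb) (hs : s ^ 2 = fB P - fA P) :
    NodeModel A.valuation (P.freyCurve⁄Qb) where
  e := 0
  f := 0
  γ₁ := (-1 + s) / 2
  γ₂ := (-1 - s) / 2
  a := (P.freyCurve⁄Qb).a₄
  h2tors := by rw [frey_a₃]; ring
  hon := by rw [frey_a₆]; ring
  hsum := by rw [frey_a₁]; ring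
  hprod := by
    rw [frey_a₂]
    have h2 : (2 : Qb) ≠ 0 := by norm_num
    have h4 : (4 : Qb) ≠ 0 := by norm_num
    field_simp
    linear_combination (-4 : Qb) * hs
  ha_def := by ring
  hδ := by
    have e : (-1 + s) / 2 - (-1 - s) / 2 = s := by ring
    rw [e]
    rw [← hs, map_pow] at hb
    exact (pow_left_inj (n := 2) two_ne_zero).mp (by rw [hb, one_pow])
  ha := ha
  ha0 := Fermat.Agent.S13.H365.frey_a₄_ne_zero P

/-- The node model of the Frey curve at the `2`-torsion point `(a^p/4, -a^p/8)`. -/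
def freyNodeC (h16 : A.valuation (16 : Qb) = 1) (hc : A.valuation (fC P) < 1)
    (ha : A.valuation (fA P) = 1) (s : Qb) (hs : s ^ 2 = fB P + 2 * fA P) :
    NodeModel A.valuation (P.freyCurve⁄Qb) where
  e := fA P / 4
  f := -(fA P) / 8
  γ₁ := (-1 + s) / 2
  γ₂ := (-1 - s) / 2
  a := fA P * fC P / 16
  h2tors := by rw [frey_a₁, frey_a₃]; ring
  hon := by rw [frey_a₁, frey_a₂, frey_a₃, frey_a₄, frey_a₆]; ring
  hsum := by rw [frey_a₁]; ring
  hprod := by
    rw [frey_a₂]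
    have h2 : (2 : Qb) ≠ 0 := by norm_num
    have h4 : (4 : Qb) ≠ 0 := by norm_num
    field_simp
    linear_combination (-4 : Qb) * hs
  ha_def := by rw [frey_a₁, frey_a₂, frey_a₄, ← fA_add_fB]; ring
  hδ := by
    have e : (-1 + s) / 2 - (-1 - s) / 2 = s := by ring
    rw [e]
    have h1 : A.valuation (fB P + 2 * fA P) = 1 := by
      have e2 : fB P + 2 * fA P = fA P + fC P := by rw [← fA_add_fB]; ring
      rw [e2, Valuation.map_add_eq_of_lt_left _ (by rw [ha]; exact hc), ha]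
    rw [← hs, map_pow] at h1
    exact (pow_left_inj (n := 2) two_ne_zero).mp (by rw [h1, one_pow])
  ha := by
    rw [map_div₀, map_mul, h16, div_one, ha, one_mul]
    exact hc
  ha0 := div_ne_zero (mul_ne_zero (fA_ne_zero P) (fC_ne_zero P)) (by norm_num)

/-- At every prime `ℓ ∣ abc` the Frey curve has a node model with rational, integral node. -/
theorem exists_freyNode {ℓ : ℕ} (hℓ : ℓ.Prime) (hA : A.LiesOverPrime ℓ)
    (hbad : (ℓ : ℤ) ∣ P.a * P.b * P.c) :
    ∃ M : NodeModel A.valuation (P.freyCurve⁄Qb), A.valuation M.e ≤ 1 ∧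
      ∀ σ : Qb ≃ₐ[ℚ] Qb, σ M.e = M.e := by
  have hℓ' : Prime (ℓ : ℤ) := Nat.prime_iff_prime_int.mp hℓ
  by_cases h2 : ℓ = 2
  · subst h2
    obtain ⟨s, hs⟩ := IsAlgClosed.exists_pow_nat_eq (fB P - fA P) (n := 2) (by norm_num)
    refine ⟨freyNodeZero P (Fermat.Agent.S13.H365.frey_val_a₄_lt_one P hA)
      (Fermat.Agent.S13.H365.frey_val_b₂_eq_one P hA) s hs, ?_, fun σ => ?_⟩
    · show A.valuation (0 : Qb) ≤ 1
      rw [_root_.map_zero]; exact zero_le_one
    · show σ (0 : Qb) = 0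
      exact _root_.map_zero σ
  have h16 : A.valuation (16 : Qb) = 1 := val_sixteen_eq_one hA hℓ h2
  have h4 : A.valuation (4 : Qb) = 1 := val_four_eq_one hA hℓ h2
  have hzero : ∀ (ha : A.valuation (fA P) * A.valuation (fB P) < 1)
      (hb : A.valuation (fB P - fA P) = 1),
      ∃ M : NodeModel A.valuation (P.freyCurve⁄Qb), A.valuation M.e ≤ 1 ∧
        ∀ σ : Qb ≃ₐ[ℚ] Qb, σ M.e = M.e := by
    intro ha hb
    obtain ⟨s, hs⟩ := IsAlgClosed.exists_pow_nat_eq (fB P - fA P) (n := 2) (by norm_num)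
    have ha4 : A.valuation (P.freyCurve⁄Qb).a₄ < 1 := by
      rw [frey_a₄, map_div₀, map_mul, Valuation.map_neg, h16, div_one]
      exact ha
    refine ⟨freyNodeZero P ha4 hb s hs, ?_, fun σ => ?_⟩
    · show A.valuation (0 : Qb) ≤ 1
      rw [_root_.map_zero]; exact zero_le_one
    · show σ (0 : Qb) = 0
      exact _root_.map_zero σ
  rcases hℓ'.dvd_or_dvd hbad with hab | hc
  · rcases hℓ'.dvd_or_dvd hab with ha | hb
    · -- `ℓ ∣ a`
      have hb' : ¬ (ℓ : ℤ) ∣ P.b := not_dvd_of_gcd_eq_one hℓ P.hgcdab ha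
      have h1 : A.valuation (fA P) < 1 := val_fA_lt_one hA ha
      have h2' : A.valuation (fB P) = 1 := val_fB_eq_one hA hℓ hb'
      apply hzero
      · rw [h2', mul_one]; exact h1
      · rw [sub_eq_add_neg, Valuation.map_add_eq_of_lt_left _
          (by rw [Valuation.map_neg, h2']; exact h1), h2']
    · -- `ℓ ∣ b`
      have ha' : ¬ (ℓ : ℤ) ∣ P.a := by
        have hg : gcd P.b P.a = 1 := by rw [gcd_comm]; exact P.hgcdab
        exact not_dvd_of_gcd_eq_one hℓ hg hb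
      have h1 : A.valuation (fB P) < 1 := val_fB_lt_one hA hb
      have h2' : A.valuation (fA P) = 1 := val_fA_eq_one hA hℓ ha'
      apply hzero
      · rw [h2', one_mul]; exact h1
      · rw [Valuation.map_sub_swap, sub_eq_add_neg, Valuation.map_add_eq_of_lt_left _
          (by rw [Valuation.map_neg, h2']; exact h1), h2']
  · -- `ℓ ∣ c`
    have ha' : ¬ (ℓ : ℤ) ∣ P.a := by
      have hg : gcd P.c P.a = 1 := by rw [gcd_comm]; exact P.hgcdac
      exact not_dvd_of_gcd_eq_one hℓ hg hc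
    have h1 : A.valuation (fC P) < 1 := val_fC_lt_one hA hc
    have h2' : A.valuation (fA P) = 1 := val_fA_eq_one hA hℓ ha'
    obtain ⟨s, hs⟩ := IsAlgClosed.exists_pow_nat_eq (fB P + 2 * fA P) (n := 2) (by norm_num)
    refine ⟨freyNodeC P h16 h1 h2' s hs, ?_, fun σ => ?_⟩
    · show A.valuation (fA P / 4) ≤ 1
      rw [map_div₀, h4, div_one, h2']
    · show σ (fA P / 4) = fA P / 4
      rw [map_div₀, sigma_fA, map_ofNat]

section decomp

open Pointwise

lemma apply_mem_of_mem_decomp_h291 {σ : Qb ≃ₐ[ℚ] Qb} (hσ : σ ∈ A.decompositionSubgroup ℚ)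
    {x : Qb} (hx : x ∈ A) : σ x ∈ A := by
  have h : σ • A = A := hσ
  have := ValuationSubring.smul_mem_pointwise_smul σ x A hx
  rw [h] at this
  exact this

/-- An element of the decomposition group preserves `1 ≤ v z`. -/
lemma one_le_val_apply_of_mem_decomp {σ : Qb ≃ₐ[ℚ] Qb} (hσ : σ ∈ A.decompositionSubgroup ℚ)
    {z : Qb} (hz : 1 ≤ A.valuation z) : 1 ≤ A.valuation (σ z) := by
  have hz0 : z ≠ 0 := by
    rintro rfl
    rw [_root_.map_zero] at hz
    exact absurd hz (not_le.mpr zero_lt_one)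
  have hv0 : A.valuation z ≠ 0 := (Valuation.ne_zero_iff _).mpr hz0
  have h1 : z⁻¹ ∈ A := by
    rw [← A.valuation_le_one_iff, map_inv₀]
    exact inv_le_one_of_one_le₀ hz
  have h2 := apply_mem_of_mem_decomp_h291 hσ h1
  rw [map_inv₀, ← A.valuation_le_one_iff, map_inv₀] at h2
  have hσz0 : A.valuation (σ z) ≠ 0 :=
    (Valuation.ne_zero_iff _).mpr ((map_ne_zero σ).mpr hz0)
  exact (one_le_inv₀ (zero_lt_iff.mpr (inv_ne_zero hσz0))).mpr h2 |>.trans_eq (inv_inv _)

/-- The decomposition group preserves the identity component of a node model with rational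
node. -/
lemma nodeInE0_smul (M : NodeModel A.valuation (P.freyCurve⁄Qb)) {σ : Qb ≃ₐ[ℚ] Qb}
    (hσ : σ ∈ A.decompositionSubgroup ℚ) (hσe : σ M.e = M.e) {Q : FreyPt P}
    (hQ : M.InE0 Q) : M.InE0 (σ • Q) := by
  rcases Q with _ | ⟨x, y, h⟩
  · exact hQ
  · rw [Point.algEquiv_smul_def, Point.map_some]
    show 1 ≤ A.valuation (σ x - M.e)
    have : σ x - M.e = σ (x - M.e) := by rw [map_sub, hσe]
    rw [this]
    exact one_le_val_apply_of_mem_decomp hσ hQ

end decomp

section exists_toric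

variable {K : Type*} [Field K] [DecidableEq K] {Γ₀ : Type*} [LinearOrderedCommGroupWithZero Γ₀]
  {v : Valuation K Γ₀} {W : Affine K}

/-- If `T₀ ∈ E[p]` is not in `E⁰`, every `S ∈ E[p]` is congruent modulo `E⁰` to a multiple
of `T₀`. -/
theorem exists_nodeInE0_sub (M : NodeModel v W) {p : ℕ} (hp : p.Prime) (T₀ S : W.Point)
    (hT₀ : p • T₀ = 0) (hS : p • S = 0) (hT₀E : ¬ M.InE0 T₀) :
    ∃ k : ℕ, M.InE0 (S - k • T₀) := by
  have h₁ : M.comp T₀ ^ p = 1 := by rw [← M.comp_nsmul, hT₀]; rfl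
  have h₂ : M.comp S ^ p = 1 := by rw [← M.comp_nsmul, hS]; rfl
  have hne : M.comp T₀ ≠ 1 := fun h => hT₀E ((M.comp_eq_one_iff T₀).mp h)
  obtain ⟨k, hk⟩ := exists_pow_eq_of_torsion _ hp (M.comp T₀) (M.comp S) h₁ h₂ hne
  refine ⟨k, ?_⟩
  rw [← M.comp_eq_one_iff, M.comp_sub, M.comp_nsmul, hk, mul_inv_cancel]

end exists_toric

/-- A prime dividing `abc` divides the discriminant of the integral Frey model. -/
lemma dvd_freyΔ_of_dvd_abc {ℓ : ℕ} (hℓ : ℓ.Prime) (hbad : (ℓ : ℤ) ∣ P.a * P.b * P.c) :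
    (ℓ : ℤ) ∣ P.freyCurveInt.Δ := by
  have hℓ' : Prime (ℓ : ℤ) := Nat.prime_iff_prime_int.mp hℓ
  have h := Fermat.Agent.Ribet.H164.g1a_Δ P
  by_cases h2 : ℓ = 2
  · subst h2
    obtain ⟨t, ht⟩ := hbad
    have h10 : (2 : ℤ) ^ 10 ∣ (P.a * P.b * P.c) ^ (2 * P.p) := by
      rw [ht, mul_pow]
      have h5 := P.hp5
      exact Dvd.dvd.mul_right (pow_dvd_pow _ (by omega)) _
    rw [← h] at h10
    have e : (2 : ℤ) ^ 10 = 2 ^ 8 * 4 := by norm_num
    rw [e] at h10
    have h4 : (4 : ℤ) ∣ P.freyCurveInt.Δ := (mul_dvd_mul_iff_left (by norm_num)).mp h10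
    exact (by norm_num : ((2 : ℕ) : ℤ) ∣ 4).trans h4
  · have h1 : (ℓ : ℤ) ∣ 2 ^ 8 * P.freyCurveInt.Δ := by
      rw [h]; exact dvd_pow hbad (by have := P.hp5; omega)
    rcases hℓ'.dvd_or_dvd h1 with h3 | h3
    · exfalso
      have h4 := hℓ'.dvd_of_dvd_pow h3
      have h5 : ℓ ∣ 2 := by exact_mod_cast h4
      exact h2 ((Nat.prime_dvd_prime_iff_eq hℓ Nat.prime_two).mp h5)
    · exact h3

/-- **LOCAL-TORIC.**  A cofixed line of the Frey curve lies in `E⁰` at every multiplicative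
prime `ℓ ≠ p` with `p ∤ ℓ - 1`, `p ∤ ℓ + 1`. -/
theorem toric_local
    (N : Submodule (ZMod P.p) (Submodule.torsionBy ℤ (FreyPt P) P.p)) (hN : IsCofixedLine P N)
    {ℓ : ℕ} (hℓ : ℓ.Prime) (hℓp : ℓ ≠ P.p) (hbad : (ℓ : ℤ) ∣ P.a * P.b * P.c)
    (hnd : ¬ P.p ∣ ℓ - 1) (hnd' : ¬ P.p ∣ ℓ + 1)
    (A : ValuationSubring Qb) (hA : A.LiesOverPrime ℓ)
    (T : Submodule.torsionBy ℤ (FreyPt P) P.p) (hT : T ∈ N) :
    FreyInE0 P A (T : FreyPt P) := by
  classical
  by_contra hT0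
  have hred := frey_isRedOf P A
  have hφ : KerMax A (IsLocalRing.residue A) := kerMax_residue A
  obtain ⟨M, he, hσe⟩ := exists_freyNode P hℓ hA hbad
  have hTM : ¬ M.InE0 (T : FreyPt P) := fun h => hT0 (inE0_of_nodeInE0 hred hφ M he h)
  obtain ⟨S, hS⟩ : ∃ S : Submodule.torsionBy ℤ (FreyPt P) P.p, S ∉ N := by
    by_contra h
    push Not at h
    exact hN.ne_top (eq_top_iff.mpr fun x _ => h x)
  obtain ⟨k, hk⟩ := exists_nodeInE0_sub M P.pp (T : FreyPt P) (S : FreyPt P)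
    (nsmul_eq_zero_of_mem_torsion T) (nsmul_eq_zero_of_mem_torsion S) hTM
  set Q : Submodule.torsionBy ℤ (FreyPt P) P.p := S - k • T with hQdef
  have hQcoe : (Q : FreyPt P) = (S : FreyPt P) - k • (T : FreyPt P) := rfl
  have hQN : Q ∉ N := by
    intro h
    apply hS
    have h1 : k • T ∈ N := N.nsmul_mem hT k
    have h2 := N.add_mem h h1
    rwa [hQdef, sub_add_cancel] at h2
  have hQ0 : Q ≠ 0 := fun h => hQN (h ▸ N.zero_mem)
  have hQE : M.InE0 (Q : FreyPt P) := by rw [hQcoe]; exact hk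
  obtain ⟨σ, hσ⟩ := Fermat.Agent.S37.H99.exists_isFrobeniusAt ℓ hℓ A hA
  have hD : σ • Q - Q ∈ N := hN.cofixed σ Q
  have hDcoe : ((σ • Q - Q : Submodule.torsionBy ℤ (FreyPt P) P.p) : FreyPt P) =
      σ • (Q : FreyPt P) - (Q : FreyPt P) := rfl
  have hDE : M.InE0 ((σ • Q - Q : Submodule.torsionBy ℤ (FreyPt P) P.p) : FreyPt P) := by
    rw [hDcoe]
    exact M.inE0_sub (nodeInE0_smul P M hσ.mem_decompositionSubgroup (hσe σ) hQE) hQE
  have hD0 : σ • Q - Q = 0 := by
    by_contra hne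
    obtain ⟨j, hj⟩ := Fermat.Agent.S13.H64.frey_line P N hN.ne_top _ hD hne T hT
    apply hTM
    have : (T : FreyPt P) = j • ((σ • Q - Q : Submodule.torsionBy ℤ (FreyPt P) P.p) : FreyPt P) :=
      congrArg Subtype.val hj
    rw [this]
    exact nodeInE0_zsmul M hDE j
  have hfix : σ • (Q : FreyPt P) = (Q : FreyPt P) := by
    have := congrArg Subtype.val hD0
    rw [hDcoe] at this
    exact sub_eq_zero.mp this
  have hord : addOrderOf (Q : FreyPt P) = P.p := addOrderOf_eq_of_mem_torsion Q hQ0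
  have hΔ := dvd_freyΔ_of_dvd_abc P hℓ hbad
  have hc₄ := Fermat.Agent.Ribet.H164.g1a_semistable P ℓ hℓ hΔ
  exact (dvd_of_frob_fixed P.pp P.freyCurve P.freyCurveInt A hℓ hℓp hA hΔ hc₄ hred σ hσ
    (Q : FreyPt P) hfix hord (inE0_of_nodeInE0 hred hφ M he hQE)).elim hnd hnd'

/-- **Toric at `2`.** -/
theorem toric_two (hp : 5 ≤ P.p)
    (N : Submodule (ZMod P.p) (Submodule.torsionBy ℤ (FreyPt P) P.p)) (hN : IsCofixedLine P N)
    (A : ValuationSubring Qb) (hA : A.LiesOverPrime 2)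
    (T : Submodule.torsionBy ℤ (FreyPt P) P.p) (hT : T ∈ N) :
    FreyInE0 P A (T : FreyPt P) := by
  refine toric_local P N hN Nat.prime_two (by omega) P.two_dvd_abc ?_ ?_ A hA T hT
  · intro h
    have := Nat.le_of_dvd (by norm_num) h
    omega
  · intro h
    have := Nat.le_of_dvd (by norm_num) h
    omega

/-- **Toric at `3`** (when `3 ∣ abc`). -/
theorem toric_three (hp : 5 ≤ P.p) (h3 : (3 : ℤ) ∣ P.a * P.b * P.c)
    (N : Submodule (ZMod P.p) (Submodule.torsionBy ℤ (FreyPt P) P.p)) (hN : IsCofixedLine P N)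
    (A : ValuationSubring Qb) (hA : A.LiesOverPrime 3)
    (T : Submodule.torsionBy ℤ (FreyPt P) P.p) (hT : T ∈ N) :
    FreyInE0 P A (T : FreyPt P) := by
  refine toric_local P N hN Nat.prime_three (by omega) (by exact_mod_cast h3) ?_ ?_ A hA T hT
  · intro h
    have := Nat.le_of_dvd (by norm_num) h
    omega
  · intro h
    have := Nat.le_of_dvd (by norm_num) h
    omega

end Fermat.Agent.S12.H291
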